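import Fermat.Agent.Raising.SquareRemoval.Weil.Glob

/-!
# The dual of the Weil representation is the one of the inverse character

For the pairing `∑ F v φ v` of functions; it is the coefficient representation of the periods.
-/

noncomputable section

namespace Fermat.Agent.Raising.SquareRemoval

open scoped MatrixGroups

namespace VdChar

variable {D : ℕ} [NeZero D] {R : Type} [CommRing R] [IsDomain R] (c : VdChar D R)

/-- The data of the inverse character. -/
def dual : VdChar D R where
  sq := c.sq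
  cop := c.cop
  unit := c.unit
  ψ := c.ψ⁻¹
  prim a ha h := c.prim ha (DFunLike.ext _ _ fun x => by
    have h' := DFunLike.congr_fun h (-x)
    rw [AddChar.mulShift_apply, AddChar.one_apply, AddChar.inv_apply, mul_neg, neg_neg] at h'
    rw [AddChar.mulShift_apply, AddChar.one_apply, h'])

omit [NeZero D] [IsDomain R] in
theorem dual_psi (x : ZMod D) : c.dual.ψ x = c.ψ (-x) := AddChar.inv_apply _ _

omit [IsDomain R] in
theorem dual_locψ (p : PIdx D) (x : ZMod p.1) : c.dual.locψ p x = c.locψ p (-x) := by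
  rw [locψ_apply, locψ_apply, dual_psi, show c.dual.crt = c.crt from rfl, ← map_neg,
    ← Pi.single_neg]

theorem dual_loc_u (p : PIdx D) : (c.dual.loc p).u = (c.loc p).u := by
  have hψ : ∀ x, (c.dual.loc p).ψ x = (c.loc p).ψ (-x) := c.dual_locψ p
  have h1 := (c.dual.loc p).gauss 1 one_ne_zero
  have h2 := (c.loc p).gauss (-1) (neg_ne_zero.mpr one_ne_zero)
  simp only [one_mul, neg_one_mul, hψ, loc_toQuadData] at h1 h2
  linear_combination (c.loc p).u * h1 - (c.dual.loc p).u * h2

theorem dual_weilMat (p : PIdx D) (g : SL(2, ℤ)) (v w : Vd (ZMod p.1)) :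
    (c.dual.loc p).weilMat g v w = (c.loc p).weilMat g⁻¹ w v := by
  have hψ : ∀ x, (c.dual.loc p).ψ x = (c.loc p).ψ (-x) := c.dual_locψ p
  rw [WeilData.weilMat_apply, WeilData.weilMat_apply, map_inv]
  generalize WeilData.redQ p.1 g = h
  have hdet : h 0 0 * h 1 1 - h 0 1 * h 1 0 = 1 := by
    have := h.2
    rwa [Matrix.det_fin_two] at this
  have e00 : (h⁻¹ : SL(2, ZMod p.1)) 0 0 = h 1 1 := by
    simp [Matrix.SpecialLinearGroup.coe_inv, Matrix.adjugate_fin_two]
  have e01 : (h⁻¹ : SL(2, ZMod p.1)) 0 1 = -h 0 1 := by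
    simp [Matrix.SpecialLinearGroup.coe_inv, Matrix.adjugate_fin_two]
  have e10 : (h⁻¹ : SL(2, ZMod p.1)) 1 0 = -h 1 0 := by
    simp [Matrix.SpecialLinearGroup.coe_inv, Matrix.adjugate_fin_two]
  have e11 : (h⁻¹ : SL(2, ZMod p.1)) 1 1 = h 0 0 := by
    simp [Matrix.SpecialLinearGroup.coe_inv, Matrix.adjugate_fin_two]
  by_cases hc : h 1 0 = 0
  · rw [hc, mul_zero, sub_zero] at hdet
    rw [WeilData.kernel_of_eq_zero _ hc, WeilData.kernel_of_eq_zero _ (by rw [e10, hc, neg_zero]),
      e00, e01]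
    by_cases hw : w = h 0 0 • v
    · have hv : v = h 1 1 • w := by rw [hw, smul_smul, mul_comm, hdet, one_smul]
      rw [if_pos hw, if_pos hv, hψ, hw, QuadData.Q_smul, loc_toQuadData, loc_toQuadData]
      congr 1
      linear_combination (h 0 0 * h 0 1 * (vdForm p.1).Q v) * hdet
    · rw [if_neg hw, if_neg]
      intro hv
      exact hw (by rw [hv, smul_smul, hdet, one_smul])
  · rw [WeilData.kernel_of_ne_zero _ hc,
      WeilData.kernel_of_ne_zero _ (by rw [e10]; exact neg_ne_zero.mpr hc),
      dual_loc_u, hψ, e00, e10, e11, inv_neg, QuadData.B_comm _ w v]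
    simp only [loc_toQuadData]
    congr 2
    ring

/-- **Adjointness**: `dual.rep g` is adjoint to `rep g⁻¹` for the pairing `∑ v, F v * φ v`. -/
theorem dual_adjoint (g : SL(2, ℤ)) (F φ : Vd (ZMod D) → R) :
    ∑ v, c.dual.rep g F v * φ v = ∑ v, F v * c.rep g⁻¹ φ v := by
  have hk : ∀ v w, c.dual.ker g v w = c.ker g⁻¹ w v := fun v w =>
    Finset.prod_congr rfl fun p _ => c.dual_weilMat p g _ _
  simp only [rep_apply, hk, Finset.sum_mul, Finset.mul_sum]
  rw [Finset.sum_comm]
  exact Finset.sum_congr rfl fun v _ => Finset.sum_congr rfl fun w _ => by ring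

end VdChar

end Fermat.Agent.Raising.SquareRemoval
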