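import Mathlib.Algebra.CharP.Lemmas
import Mathlib.Analysis.Complex.Basic
import Mathlib.RingTheory.LocalRing.ResidueField.Basic
import Fermat.Agent.Raising.SquareRemoval.Shapiro
import Fermat.Agent.Raising.SquareRemoval.Weil.Glob

/-!
# Weil data over a valuation ring of residue characteristic three, and reduction

The Weil representation of level `D` is defined over a valuation ring `O` of `ℂ` above `3` and over
its residue field, compatibly with the Hecke operators on crossed homomorphisms.
-/

noncomputable section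

namespace Fermat.Agent.Raising.SquareRemoval

open scoped MatrixGroups
open CongruenceSubgroup Fermat.Agent.Hecke

section Valuation

variable {O : ValuationSubring ℂ} (hO : O.valuation 3 < 1)

/-- The residue field of a valuation ring of `ℂ`. -/
abbrev kRes (O : ValuationSubring ℂ) : Type := IsLocalRing.ResidueField O

theorem mem_of_pow_eq_one {x : ℂ} {n : ℕ} (hn : n ≠ 0) (hx : x ^ n = 1) : x ∈ O := by
  rcases O.mem_or_inv_mem x with h | h
  · exact h
  · obtain ⟨m, rfl⟩ : ∃ m, n = m + 1 := ⟨n - 1, by omega⟩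
    rw [pow_succ] at hx
    have e : x = (x⁻¹) ^ m := by
      rw [inv_pow]
      exact eq_inv_of_mul_eq_one_right hx
    rw [e]
    exact pow_mem h m

include hO

theorem exists_notMem : ∃ c : ℂ, c ∉ O := by
  refine ⟨3⁻¹, fun h => ?_⟩
  have h1 := (O.valuation_le_one_iff _).mpr h
  rw [map_inv₀] at h1
  exact absurd
    ((one_le_inv₀ (zero_lt_iff.mpr (O.valuation.ne_zero_iff.mpr (by norm_num)))).mpr hO.le)
    (not_le.mpr (lt_of_le_of_ne h1 fun e => hO.ne (inv_eq_one.mp e)))

theorem three_mem_maximal : (3 : O) ∈ IsLocalRing.maximalIdeal O :=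
  (O.valuation_lt_one_iff _).mpr hO

theorem three_eq_zero : (3 : kRes O) = 0 := by
  rw [← map_ofNat (IsLocalRing.residue O) 3]
  exact (IsLocalRing.residue_eq_zero_iff _).mpr (three_mem_maximal hO)

theorem charP_three : CharP (kRes O) 3 :=
  ringChar.of_eq
    (CharP.ringChar_of_prime_eq_zero Nat.prime_three (by exact_mod_cast three_eq_zero hO))

theorem natCast_residue_ne_zero {n : ℕ} (hn : Nat.Coprime 3 n) : (n : kRes O) ≠ 0 := by
  have := charP_three hO
  rw [Ne, CharP.cast_eq_zero_iff (kRes O) 3]
  exact (Nat.Prime.coprime_iff_not_dvd Nat.prime_three).mp hn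

theorem isUnit_natCast {n : ℕ} (hn : Nat.Coprime 3 n) : IsUnit (n : O) :=
  IsLocalRing.residue_ne_zero_iff_isUnit _ |>.mp (by
    rw [map_natCast]; exact natCast_residue_ne_zero hO hn)

/-- Roots of unity of three-power order reduce to `1`. -/
theorem residue_eq_one_of_root {x : O} {k : ℕ} (hx : (x : ℂ) ^ 3 ^ k = 1) :
    IsLocalRing.residue O x = 1 := by
  have := charP_three hO
  have : Fact (Nat.Prime 3) := ⟨Nat.prime_three⟩
  have h1 : x ^ 3 ^ k = 1 := Subtype.ext (by push_cast; exact hx)
  have h2 : (IsLocalRing.residue O x - 1) ^ 3 ^ k = 0 := by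
    rw [sub_pow_char_pow, one_pow, ← map_pow, h1, map_one, sub_self]
  exact sub_eq_zero.mp (eq_zero_of_pow_eq_zero h2)

end Valuation

namespace VdChar

variable {D : ℕ} [NeZero D] {O : ValuationSubring ℂ} (hO : O.valuation 3 < 1) (c : VdChar D ℂ)

omit [NeZero D] in
theorem psi_pow_eq_one (x : ZMod D) : c.ψ x ^ D = 1 := by
  rw [← AddChar.map_nsmul_eq_pow, nsmul_eq_mul, ZMod.natCast_self, zero_mul,
    AddChar.map_zero_eq_one]

/-- The character with values in the valuation ring. -/
def intψ (O : ValuationSubring ℂ) : AddChar (ZMod D) O where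
  toFun x := ⟨c.ψ x, mem_of_pow_eq_one (NeZero.ne D) (c.psi_pow_eq_one x)⟩
  map_zero_eq_one' := Subtype.ext c.ψ.map_zero_eq_one
  map_add_eq_mul' x y := Subtype.ext (c.ψ.map_add_eq_mul x y)

omit [NeZero D] in
theorem exists_ne_one {R : Type} [CommRing R] {ψ : AddChar (ZMod D) R} (hψ : ψ.IsPrimitive)
    {a : ZMod D} (ha : a ≠ 0) : ∃ x, ψ (a * x) ≠ 1 := by
  by_contra h
  push Not at h
  exact hψ ha (DFunLike.ext _ _ fun x => by rw [AddChar.mulShift_apply, h, AddChar.one_apply])

/-- The same data with the character taking values in `O`. -/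
def overO : VdChar D O where
  sq := c.sq
  cop := c.cop
  unit := isUnit_natCast hO c.cop
  ψ := c.intψ O
  prim a ha h := by
    obtain ⟨x, hx⟩ := exists_ne_one c.prim ha
    have h' := DFunLike.congr_fun h x
    rw [AddChar.mulShift_apply, AddChar.one_apply] at h'
    exact hx (congrArg Subtype.val h')

/-- The same data over the residue field of `O`. -/
def overK : VdChar D (kRes O) where
  sq := c.sq
  cop := c.cop
  unit := isUnit_iff_ne_zero.mpr (natCast_residue_ne_zero hO c.cop)
  ψ := (IsLocalRing.residue O).toMonoidHom.compAddChar (c.intψ O)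
  prim a ha h := by
    obtain ⟨x, hx⟩ := exists_ne_one (c.overO hO).prim ha
    have h1 : IsLocalRing.residue O (c.intψ O (a * x)) = 1 := DFunLike.congr_fun h x
    set z : O := c.intψ O (a * x)
    have hz : z ^ D = 1 := Subtype.ext (by push_cast; exact c.psi_pow_eq_one (a * x))
    have hs : ∑ i ∈ Finset.range D, z ^ i = 0 := by
      have h2 := geom_sum_mul z D
      rw [hz, sub_self] at h2
      exact (mul_eq_zero.mp h2).resolve_right (sub_ne_zero.mpr hx)
    refine natCast_residue_ne_zero hO c.cop ?_
    have h3 := congrArg (IsLocalRing.residue O) hs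
    simpa [map_sum, h1] using h3

/-- The representation over `O` is the restriction of the one over `ℂ`. -/
theorem rep_coe (g : SL(2, ℤ)) (φ : Vd (ZMod D) → O) (v : Vd (ZMod D)) :
    (((c.overO hO).rep g φ v : O) : ℂ) = c.rep g (fun w => (φ w : ℂ)) v :=
  (congrFun ((c.overO hO).map_rep O.subtype c (fun _ => rfl) g φ) v).symm

/-- The representation over the residue field is the reduction of the one over `O`. -/
theorem rep_residue (g : SL(2, ℤ)) (φ : Vd (ZMod D) → O) (v : Vd (ZMod D)) :
    IsLocalRing.residue O ((c.overO hO).rep g φ v) =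
      (c.overK hO).rep g (fun w => IsLocalRing.residue O (φ w)) v :=
  (congrFun ((c.overO hO).map_rep (IsLocalRing.residue O) (c.overK hO) (fun _ => rfl) g φ) v).symm

section Hecke

variable {M ℓ : ℕ} [NeZero M] [NeZero ℓ] {R R₁ : Type} [CommRing R] [CommRing R₁] [IsDomain R]
  [IsDomain R₁] (f : R →+* R₁) (d : VdChar D R) (d₁ : VdChar D R₁) (hψ : ∀ x, d₁.ψ x = f (d.ψ x))
  (hℓ : ℓ.Prime) (hn : ¬ ℓ ∣ M * D)
include hψ

omit c in
/-- `T_ℓ` commutes with a change of coefficient ring. -/
theorem heckeCoc_map (z : Gamma0 M → Vd (ZMod D) → R) (g : Gamma0 M) (v : Vd (ZMod D)) :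
    f (heckeCoc d.rep hℓ hn z g v) = heckeCoc d₁.rep hℓ hn (fun g w => f (z g w)) g v := by
  simp only [heckeCoc, cocTransfer_apply, Finset.sum_apply, map_sum]
  refine Finset.sum_congr rfl fun q _ => ?_
  exact (congrFun (d.map_rep f d₁ hψ _ _) v).symm

end Hecke

end VdChar

section Reduction

variable {O : ValuationSubring ℂ} {Y : Type}

/-- The residue-field functions that are reductions of members of `N`. -/
def redImage (N : Submodule O (Y → O)) : Submodule (kRes O) (Y → kRes O) where
  carrier := {f | ∃ l ∈ N, (fun y => IsLocalRing.residue O (l y)) = f}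
  zero_mem' := ⟨0, N.zero_mem, funext fun y => by simp⟩
  add_mem' := by
    rintro _ _ ⟨l, hl, rfl⟩ ⟨l', hl', rfl⟩
    exact ⟨l + l', N.add_mem hl hl', funext fun y => by simp⟩
  smul_mem' := by
    rintro r _ ⟨l, hl, rfl⟩
    obtain ⟨r, rfl⟩ := IsLocalRing.residue_surjective r
    exact ⟨r • l, N.smul_mem r hl, funext fun y => by simp⟩

theorem mem_redImage {N : Submodule O (Y → O)} {f : Y → kRes O} :
    f ∈ redImage N ↔ ∃ l ∈ N, (fun y => IsLocalRing.residue O (l y)) = f := Iff.rfl

end Reduction

end Fermat.Agent.Raising.SquareRemoval
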