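import Fermat.Prelude.Thm_ModularForm_coeffHeckeT_comm
import Fermat.Prelude.Thm_ModularForm_isBoundedAtImInfty_heckeT
import Fermat.Prelude.Thm_ModularForm_mdifferentiable_heckeT
import Fermat.Prelude.Thm_ModularForm_periodic_heckeT_comp_ofComplex
import Fermat.Prelude.Thm_UpperHalfPlane_qCoeff_heckeT
import Fermat.Agent.Hecke.Periods
import Fermat.Agent.Ihara.Rows
import Fermat.Agent.ResidualThree.SquarefreeLevel.Family

/-!
# Hecke operators in weight two at level `Γ(D) ∩ Γ₀(M)`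

`T_ℓ` for `ℓ ≡ 1 (mod D)`, computed with representatives congruent to `1` modulo `D`; conjugation
by `diag (D, 1)` carries it to the operator on functions of period one.
-/

noncomputable section

open CongruenceSubgroup UpperHalfPlane ModularFormClass Function
open scoped ModularForm MatrixGroups Manifold

namespace Fermat.Agent.Raising.SquareRemoval

open Fermat.Agent.ResidualThree (intGL intGL_apply intGL_mul det_hRep hRep intGL_hRep_some
  intGL_hRep_none
  smul_slash_intGL)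
open Fermat.Agent.ResidualThree.SquarefreeLevel (hRepD det_hRepD hRepD_mul_dMat dMat det_dMat)
open Fermat.Agent.Hecke (upperRep upperRepOpt upperRepOpt_bijective mem_upperSub_iff_eq upperSub
  dUp mkGamma0 mkGamma0_val gamma0_gl_val)

/-- `T_ℓ` in weight two with these representatives. -/
def heckeTwo (l D : ℕ) [NeZero l] (f : ℍ → ℂ) : ℍ → ℂ :=
  ∑ i : Option (ZMod l), f ∣[(2 : ℤ)] intGL (hRepD l D i)

variable {l D : ℕ} [NeZero l]

theorem heckeTwo_add (f g : ℍ → ℂ) : heckeTwo l D (f + g) = heckeTwo l D f + heckeTwo l D g := by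
  simp only [heckeTwo, SlashAction.add_slash, Finset.sum_add_distrib]

theorem heckeTwo_smul (c : ℂ) (f : ℍ → ℂ) : heckeTwo l D (c • f) = c • heckeTwo l D f := by
  simp only [heckeTwo, Finset.smul_sum]
  exact Finset.sum_congr rfl fun i _ =>
    smul_slash_intGL (by rw [det_hRepD]; exact_mod_cast Nat.pos_of_ne_zero (NeZero.ne l)) _ _

omit [NeZero l] in
theorem intGL_dMat (hD : D ≠ 0) : intGL (dMat D) = ModularForm.heckeDiagMatrix D := by
  refine Units.ext (Matrix.ext fun i k => ?_)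
  rw [intGL_apply (by rw [det_dMat]; exact_mod_cast hD), ModularForm.val_heckeDiagMatrix hD]
  fin_cases i <;> fin_cases k <;> simp [dMat]

theorem sum_hRep_eq_heckeT (g : ℍ → ℂ) :
    ∑ i : Option (ZMod l), g ∣[(2 : ℤ)] intGL (hRep l i) = ModularForm.heckeT 2 l g := by
  have hl := NeZero.ne l
  rw [Fintype.sum_option, ModularForm.heckeT_def, intGL_hRep_none hl, add_comm]
  congr 1
  refine Eq.symm (Finset.sum_bij (fun j _ => (j : ZMod l)) (fun j _ => Finset.mem_univ _) ?_ ?_ ?_)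
  · intro a ha b hb e
    have := congrArg ZMod.val e
    rwa [ZMod.val_natCast, ZMod.val_natCast, Nat.mod_eq_of_lt (Finset.mem_range.1 ha),
      Nat.mod_eq_of_lt (Finset.mem_range.1 hb)] at this
  · intro b _
    exact ⟨b.val, Finset.mem_range.2 (ZMod.val_lt b), ZMod.natCast_zmod_val b⟩
  · intro j hj
    rw [intGL_hRep_some hl, ZMod.val_natCast, Nat.mod_eq_of_lt (Finset.mem_range.1 hj)]

/-- Conjugation by `diag (D, 1)`. -/
theorem heckeTwo_slash_dMat (hD : D ≠ 0) (f : ℍ → ℂ) :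
    heckeTwo l D f ∣[(2 : ℤ)] intGL (dMat D) =
      ModularForm.heckeT 2 l (f ∣[(2 : ℤ)] intGL (dMat D)) := by
  have hl : (l : ℤ) ≠ 0 := Int.natCast_ne_zero.2 (NeZero.ne l)
  have hd : (dMat D).det ≠ 0 := by rw [det_dMat]; exact_mod_cast hD
  rw [heckeTwo, SlashAction.sum_slash, ← sum_hRep_eq_heckeT]
  refine Finset.sum_congr rfl fun i _ => ?_
  rw [← SlashAction.slash_mul, ← intGL_mul (by rw [det_hRepD]; exact hl) hd, hRepD_mul_dMat,
    intGL_mul hd (by rw [det_hRep]; exact hl), SlashAction.slash_mul]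

omit [NeZero l] in
theorem slash_dMat_apply (hD : D ≠ 0) (f : ℍ → ℂ) (τ : ℍ) :
    (f ∣[(2 : ℤ)] intGL (dMat D)) τ = (D : ℂ) * f (ModularForm.heckeDiagMatrix D • τ) := by
  rw [intGL_dMat hD, ModularForm.slash_heckeDiagMatrix_apply 2 hD]
  norm_num

omit [NeZero l] in
theorem slash_dMat_comp (hD : D ≠ 0) (f : ℍ → ℂ) (z : ℂ) (hz : 0 < z.im) :
    ((f ∣[(2 : ℤ)] intGL (dMat D)) ∘ ofComplex) z = (D : ℂ) * (f ∘ ofComplex) ((D : ℂ) * z) := by
  have hz' : 0 < ((D : ℂ) * z).im := by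
    rw [Complex.mul_im, Complex.natCast_re, Complex.natCast_im, zero_mul, add_zero]
    exact mul_pos (Nat.cast_pos.2 (Nat.pos_of_ne_zero hD)) hz
  rw [comp_apply, comp_apply, ofComplex_apply_of_im_pos hz, ofComplex_apply_of_im_pos hz',
    slash_dMat_apply hD]
  congr 2
  exact UpperHalfPlane.ext (ModularForm.coe_heckeDiagMatrix_smul hD _)

omit [NeZero l] in
/-- `f ∣ diag (D, 1)` has period one exactly when `f` has period `D`. -/
theorem periodic_slash_dMat (hD : D ≠ 0) (f : ℍ → ℂ) :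
    Periodic ((f ∣[(2 : ℤ)] intGL (dMat D)) ∘ ofComplex) 1 ↔
      Periodic (f ∘ ofComplex) (D : ℂ) := by
  have hD' : (D : ℂ) ≠ 0 := Nat.cast_ne_zero.2 hD
  constructor
  · intro h z
    by_cases hz : 0 < z.im
    · have hz1 : 0 < (z / (D : ℂ)).im := by
        rw [Complex.div_natCast_im]
        exact div_pos hz (Nat.cast_pos.2 (Nat.pos_of_ne_zero hD))
      have hz2 : 0 < (z / (D : ℂ) + 1).im := by simpa using hz1
      have h1 := h (z / (D : ℂ))
      rw [slash_dMat_comp hD f _ hz2, slash_dMat_comp hD f _ hz1, mul_add, mul_div_cancel₀ _ hD',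
        mul_one] at h1
      exact mul_left_cancel₀ hD' h1
    · have hz2 : (z + (D : ℂ)).im ≤ 0 := by simpa using not_lt.1 hz
      simp only [comp_apply, ofComplex_apply_of_im_nonpos hz2,
        ofComplex_apply_of_im_nonpos (not_lt.1 hz)]
  · intro h z
    by_cases hz : 0 < z.im
    · have hz2 : 0 < (z + 1).im := by simpa using hz
      rw [slash_dMat_comp hD f _ hz2, slash_dMat_comp hD f _ hz, mul_add, mul_one, h]
    · have hz2 : (z + 1).im ≤ 0 := by simpa using not_lt.1 hz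
      simp only [comp_apply, ofComplex_apply_of_im_nonpos hz2,
        ofComplex_apply_of_im_nonpos (not_lt.1 hz)]

omit [NeZero l] in
theorem isBoundedAtImInfty_slash_dMat (hD : D ≠ 0) (f : ℍ → ℂ) :
    IsBoundedAtImInfty (f ∣[(2 : ℤ)] intGL (dMat D)) ↔ IsBoundedAtImInfty f := by
  have hDp : (0 : ℝ) < D := Nat.cast_pos.2 (Nat.pos_of_ne_zero hD)
  have him : ∀ τ : ℍ, (ModularForm.heckeDiagMatrix D • τ).im = (D : ℝ) * τ.im := fun τ => by
    rw [← UpperHalfPlane.coe_im, ModularForm.coe_heckeDiagMatrix_smul hD, Complex.mul_im,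
      Complex.natCast_re, Complex.natCast_im, UpperHalfPlane.coe_im, zero_mul, add_zero]
  simp only [isBoundedAtImInfty_iff]
  constructor
  · rintro ⟨M, A, h⟩
    refine ⟨M / D, D * A, fun τ hτ => ?_⟩
    let σ : ℍ := ⟨(τ : ℂ) / (D : ℂ), by
      rw [Complex.div_natCast_im]; exact div_pos τ.im_pos hDp⟩
    have e : ModularForm.heckeDiagMatrix D • σ = τ := UpperHalfPlane.ext (by
      rw [ModularForm.coe_heckeDiagMatrix_smul hD]
      exact mul_div_cancel₀ _ (Nat.cast_ne_zero.2 hD))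
    have hσ : A ≤ σ.im := by
      have := him σ
      rw [e] at this
      nlinarith
    have h1 := h σ hσ
    rw [slash_dMat_apply hD, e, norm_mul, Complex.norm_natCast] at h1
    rw [le_div_iff₀ hDp, mul_comm]
    exact h1
  · rintro ⟨M, A, h⟩
    refine ⟨D * M, A / D, fun τ hτ => ?_⟩
    rw [slash_dMat_apply hD, norm_mul, Complex.norm_natCast]
    refine mul_le_mul_of_nonneg_left (h _ ?_) hDp.le
    rw [him, mul_comm, ← div_le_iff₀ hDp]
    exact hτ

omit [NeZero l] in
theorem slash_dMat_injective {f g : ℍ → ℂ}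
    (h : f ∣[(2 : ℤ)] intGL (dMat D) = g ∣[(2 : ℤ)] intGL (dMat D)) : f = g := by
  have := congrArg (fun F : ℍ → ℂ => F ∣[(2 : ℤ)] (intGL (dMat D))⁻¹) h
  simpa [← SlashAction.slash_mul] using this

/-- `T_ℓ` preserves holomorphy. -/
theorem mdiff_heckeTwo {f : ℍ → ℂ} (hf : MDiff f) : MDiff (heckeTwo l D f) :=
  Finset.sum_induction _ (fun F : ℍ → ℂ => MDiff F) (fun _ _ ha hb => ha.add hb)
    mdifferentiable_const fun _ _ => hf.slash 2 _

/-- The `q`-coefficients of `T_ℓ f` after conjugation by `diag (D, 1)`. -/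
theorem qCoeff_heckeTwo (hD : D ≠ 0) {f : ℍ → ℂ} (hf : Periodic (f ∘ ofComplex) (D : ℂ))
    (hd : MDiff f) (hb : IsBoundedAtImInfty f) (n : ℕ) :
    qCoeff (heckeTwo l D f ∣[(2 : ℤ)] intGL (dMat D)) n =
      qCoeff (f ∣[(2 : ℤ)] intGL (dMat D)) (l * n) +
        (l : ℂ) * (if l ∣ n then qCoeff (f ∣[(2 : ℤ)] intGL (dMat D)) (n / l) else 0) := by
  rw [heckeTwo_slash_dMat hD, UpperHalfPlane.qCoeff_heckeT ((periodic_slash_dMat hD f).2 hf)
    (hd.slash 2 _) ((isBoundedAtImInfty_slash_dMat hD f).2 hb) 2 (NeZero.ne l),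
    ModularForm.coeffHeckeT_apply, mul_comm n l, mul_ite, mul_zero]
  norm_num

omit [NeZero l] in
theorem eq_of_qCoeff_eq {g g' : ℍ → ℂ} (hg : Periodic (g ∘ ofComplex) 1) (hd : MDiff g)
    (hb : IsBoundedAtImInfty g) (hg' : Periodic (g' ∘ ofComplex) 1) (hd' : MDiff g')
    (hb' : IsBoundedAtImInfty g') (h : ∀ n, qCoeff g n = qCoeff g' n) : g = g' := by
  funext τ
  have h1 := UpperHalfPlane.hasSum_qExpansion one_pos (by simpa using hg) hd hb τ
  have h2 := UpperHalfPlane.hasSum_qExpansion one_pos (by simpa using hg') hd' hb' τ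
  simp only [qCoeff] at h
  simp only [h] at h1
  exact h1.unique h2

/-- **The operators `T_ℓ` commute** on periodic holomorphic functions bounded at `∞`. -/
theorem heckeTwo_comm {l' : ℕ} [NeZero l'] (hl : l.Prime) (hl' : l'.Prime) (hD : D ≠ 0)
    {f : ℍ → ℂ} (hf : Periodic (f ∘ ofComplex) (D : ℂ)) (hd : MDiff f)
    (hb : IsBoundedAtImInfty f) :
    heckeTwo l D (heckeTwo l' D f) = heckeTwo l' D (heckeTwo l D f) := by
  by_cases hll : l = l'
  · subst hll
    rfl
  refine slash_dMat_injective (D := D) ?_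
  simp only [heckeTwo_slash_dMat hD]
  set g := f ∣[(2 : ℤ)] intGL (dMat D)
  have hg : Periodic (g ∘ ofComplex) 1 := (periodic_slash_dMat hD f).2 hf
  have hgd : MDiff g := hd.slash 2 _
  have hgb : IsBoundedAtImInfty g := (isBoundedAtImInfty_slash_dMat hD f).2 hb
  have hcoef : ∀ p : ℕ, p ≠ 0 →
      qCoeff (ModularForm.heckeT 2 p g) = ModularForm.coeffHeckeT 2 p (qCoeff g) := fun p hp =>
    funext (UpperHalfPlane.qCoeff_heckeT hg hgd hgb 2 hp)
  refine eq_of_qCoeff_eq
    (ModularForm.periodic_heckeT_comp_ofComplex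
      (ModularForm.periodic_heckeT_comp_ofComplex hg 2 l') 2 l)
    (ModularForm.mdifferentiable_heckeT (ModularForm.mdifferentiable_heckeT hgd 2 l') 2 l)
    (ModularForm.isBoundedAtImInfty_heckeT (ModularForm.isBoundedAtImInfty_heckeT hgb 2 l') 2 l)
    (ModularForm.periodic_heckeT_comp_ofComplex
      (ModularForm.periodic_heckeT_comp_ofComplex hg 2 l) 2 l')
    (ModularForm.mdifferentiable_heckeT (ModularForm.mdifferentiable_heckeT hgd 2 l) 2 l')
    (ModularForm.isBoundedAtImInfty_heckeT (ModularForm.isBoundedAtImInfty_heckeT hgb 2 l) 2 l')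
    fun n => ?_
  rw [UpperHalfPlane.qCoeff_heckeT (ModularForm.periodic_heckeT_comp_ofComplex hg 2 l')
      (ModularForm.mdifferentiable_heckeT hgd 2 l') (ModularForm.isBoundedAtImInfty_heckeT hgb 2 l')
      2 hl.ne_zero,
    UpperHalfPlane.qCoeff_heckeT (ModularForm.periodic_heckeT_comp_ofComplex hg 2 l)
      (ModularForm.mdifferentiable_heckeT hgd 2 l) (ModularForm.isBoundedAtImInfty_heckeT hgb 2 l)
      2 hl'.ne_zero, hcoef l hl.ne_zero, hcoef l' hl'.ne_zero,
    ModularForm.coeffHeckeT_comm 2 ((Nat.coprime_primes hl hl').2 hll)]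

/-! ### The operator as a sum over cosets of the upper Hecke subgroup -/

/-- **Representatives congruent to `1` modulo `D`.** -/
theorem exists_reps {M : ℕ} (hl : l.Prime) (hlMD : ¬ l ∣ M * D)
    (hlD : (D : ℤ) ∣ (l : ℤ) - 1) :
    ∃ t : Option (ZMod l) → Gamma0 M,
      Bijective (fun i => ((t i : Gamma0 M) : Gamma0 M ⧸ upperSub M l)) ∧
      (∀ i, ((t i : Gamma0 M) : SL(2, ℤ)) ∈ Gamma D) ∧
      ∀ f : ℍ → ℂ, (∀ g : SL(2, ℤ), g ∈ Gamma0 M → g ∈ Gamma D → f ∣[(2 : ℤ)] g = f) →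
        heckeTwo l D f =
          ∑ i, f ∣[(2 : ℤ)] (dUp l * ((((t i)⁻¹ : Gamma0 M) : SL(2, ℤ)) : GL (Fin 2) ℝ)) := by
  have : Fact l.Prime := ⟨hl⟩
  have hlM : ¬ l ∣ M := fun h => hlMD (h.mul_right _)
  have hlD' : ¬ l ∣ D := fun h => hlMD (h.mul_left _)
  obtain ⟨x, y, hxy⟩ : ∃ x y : ℤ, (l : ℤ) * x - ((M * D : ℕ) : ℤ) * ((D : ℤ) * y) = 1 := by
    have hc : Nat.Coprime l (M * D * D) :=
      Nat.Coprime.mul_right (hl.coprime_iff_not_dvd.2 hlMD) (hl.coprime_iff_not_dvd.2 hlD')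
    obtain ⟨u, v, h⟩ := hc.isCoprime
    exact ⟨u, -v, by push_cast at h ⊢; linear_combination h⟩
  push_cast at hxy
  have hlx : (D : ℤ) ∣ (l : ℤ) * x - 1 := ⟨(M : ℤ) * D * y, by linear_combination hxy⟩
  have hx : (D : ℤ) ∣ x - 1 := by
    have h := dvd_sub hlx (hlD.mul_right x)
    rwa [show (l : ℤ) * x - 1 - ((l : ℤ) - 1) * x = x - 1 by ring] at h
  let tinf : Gamma0 M := mkGamma0 M 1 (-((D : ℤ) * y)) (-((M : ℤ) * D)) ((l : ℤ) * x)
    (by linear_combination hxy) (dvd_mul_right _ _).neg_right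
  let t : Option (ZMod l) → Gamma0 M
    | none => tinf
    | some u => upperRep M (D * u.val)
  have htinv : (tinf⁻¹).1.1 = !![(l : ℤ) * x, (D : ℤ) * y; (M : ℤ) * D, 1] := by
    simp [InvMemClass.coe_inv, Matrix.SpecialLinearGroup.coe_inv, Matrix.adjugate_fin_two, tinf,
      mkGamma0_val]
  refine ⟨t, ?_, ?_, fun f hf => ?_⟩
  · have hcard : Fintype.card (Option (ZMod l)) = Fintype.card (Option (Fin l)) := by simp
    set e := Equiv.ofBijective _ (upperRepOpt_bijective hl hlM)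
    suffices hinj : Injective fun i => ((t i : Gamma0 M) : Gamma0 M ⧸ upperSub M l) from
      Function.Bijective.of_comp_iff' e.symm.bijective _ |>.1
        ((Fintype.bijective_iff_injective_and_card _).2 ⟨e.symm.injective.comp hinj, hcard⟩)
    have hlp : Prime (l : ℤ) := Nat.prime_iff_prime_int.mp hl
    have hne : ∀ u : ZMod l, ((tinf : Gamma0 M) : Gamma0 M ⧸ upperSub M l) ≠
        (upperRep M (D * u.val) : Gamma0 M) := by
      intro u h
      rw [mem_upperSub_iff_eq] at h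
      simp only [htinv, Fermat.Agent.Hecke.upperRep_val, Matrix.of_apply, Matrix.cons_val',
        Matrix.cons_val_zero, Matrix.cons_val_one, Matrix.cons_val_fin_one] at h
      obtain ⟨m, hm⟩ := h
      have h1 : (l : ℤ) ∣ (D : ℤ) * y :=
        ⟨m + x * ((D * u.val : ℕ) : ℤ), by linear_combination hm⟩
      obtain ⟨k, hk⟩ := h1
      exact hlp.not_dvd_one ⟨x - (M : ℤ) * D * k, by linear_combination -hxy - (M : ℤ) * D * hk⟩
    rintro (_ | u) (_ | u') h
    · rfl
    · exact absurd h (hne u')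
    · exact absurd h.symm (hne u)
    · simp only [t, mem_upperSub_iff_eq, Fermat.Agent.Hecke.upperRep_inv_val,
        Fermat.Agent.Hecke.upperRep_val, Matrix.of_apply, Matrix.cons_val', Matrix.cons_val_zero,
        Matrix.cons_val_one, Matrix.cons_val_fin_one] at h
      rw [← ZMod.intCast_zmod_eq_zero_iff_dvd] at h
      push_cast at h
      simp only [ZMod.natCast_val, ZMod.cast_id', id_eq] at h
      have hD0 : (D : ZMod l) ≠ 0 := by rwa [Ne, ZMod.natCast_eq_zero_iff]
      refine congrArg some (mul_left_cancel₀ hD0 ?_)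
      linear_combination h
  · rintro (_ | u)
    · refine Fermat.Agent.Ihara.Gamma_mem_iff_dvd.mpr ⟨?_, ?_, ?_, ?_⟩ <;>
        simp only [t, tinf, mkGamma0_val, Matrix.of_apply, Matrix.cons_val', Matrix.cons_val_zero,
          Matrix.cons_val_one, Matrix.cons_val_fin_one]
      · simp
      · exact (dvd_mul_right _ _).neg_right
      · exact (dvd_mul_left _ _).neg_right
      · exact hlx
    · refine Fermat.Agent.Ihara.Gamma_mem_iff_dvd.mpr ⟨?_, ?_, ?_, ?_⟩ <;>
        simp [t, Fermat.Agent.Hecke.upperRep_val]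
  · refine Finset.sum_congr rfl fun i _ => ?_
    rcases i with _ | u
    · let ε : Gamma0 M := mkGamma0 M x ((D : ℤ) * y) ((M : ℤ) * D) l
        (by linear_combination hxy) (dvd_mul_right _ _)
      have hε : ((ε : Gamma0 M) : SL(2, ℤ)) ∈ Gamma D := by
        refine Fermat.Agent.Ihara.Gamma_mem_iff_dvd.mpr ⟨?_, ?_, ?_, ?_⟩ <;>
          simp only [ε, mkGamma0_val, Matrix.of_apply, Matrix.cons_val', Matrix.cons_val_zero,
            Matrix.cons_val_one, Matrix.cons_val_fin_one]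
        · exact hx
        · exact dvd_mul_right _ _
        · exact dvd_mul_left _ _
        · exact hlD
      have e : dUp l * ((((tinf)⁻¹ : Gamma0 M) : SL(2, ℤ)) : GL (Fin 2) ℝ) =
          ((ε : SL(2, ℤ)) : GL (Fin 2) ℝ) * intGL (hRepD l D none) := by
        apply Units.ext
        rw [Units.val_mul, Units.val_mul, gamma0_gl_val, gamma0_gl_val, htinv, mkGamma0_val]
        ext i k
        simp only [Matrix.mul_apply, Fin.sum_univ_two,
          intGL_apply (M := hRepD l D none) (by rw [det_hRepD]; exact_mod_cast hl.ne_zero)]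
        fin_cases i <;> fin_cases k <;>
          simp [Fermat.Agent.Hecke.dUp, ModularForm.val_heckeMatrix hl.ne_zero, hRepD] <;> ring
      show _ = f ∣[(2 : ℤ)] (dUp l * (((tinf⁻¹ : Gamma0 M) : SL(2, ℤ)) : GL (Fin 2) ℝ))
      rw [e, SlashAction.slash_mul, ← ModularForm.SL_slash, hf _ ε.2 hε]
    · show _ = f ∣[(2 : ℤ)] (dUp l * ((((upperRep M (D * u.val))⁻¹ : Gamma0 M) : SL(2, ℤ)) :
        GL (Fin 2) ℝ))
      rw [Fermat.Agent.Hecke.dUp_mul_upperRep hl.ne_zero]
      congr 1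
      refine Units.ext (Matrix.ext fun i k => ?_)
      rw [intGL_apply (by rw [det_hRepD]; exact_mod_cast hl.ne_zero),
        ModularForm.val_heckeMatrix hl.ne_zero]
      fin_cases i <;> fin_cases k <;> simp [hRepD]

end Fermat.Agent.Raising.SquareRemoval
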