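import Fermat.Agent.Periods.MaxPrinciple
import Fermat.Agent.Raising.SquareRemoval.Residual.HeckeTwo
import Fermat.Agent.Raising.SquareRemoval.Shapiro

/-!
# Periods of families of weight-two functions

A family `h` assigns to a function `φ` on a finite set a weight-two function, with
`h φ ∣ γ = h (W γ⁻¹ φ)` on `Γ₀(M)`. Its periods form a crossed homomorphism for the dual
representation, compatibly with `T_ℓ`; they are principal only for `h = 0`.
-/

noncomputable section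

namespace Fermat.Agent.Raising.SquareRemoval

open UpperHalfPlane CongruenceSubgroup Filter Topology Function
open Fermat.Agent.Periods Fermat.Agent.Hecke
open scoped ModularForm MatrixGroups Manifold

variable {V : Type} [Fintype V] [DecidableEq V]

/-- The bilinear pairing `∑ v, F v * φ v` on functions. -/
def pairV (F φ : V → ℂ) : ℂ := ∑ v, F v * φ v

theorem pairV_single (F : V → ℂ) (v : V) : pairV F (Pi.single v 1) = F v := by
  rw [pairV, Finset.sum_eq_single v (fun w _ hw => by rw [Pi.single_eq_of_ne hw, mul_zero])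
    (by simp), Pi.single_eq_same, mul_one]

theorem ext_pairV {F G : V → ℂ} (h : ∀ φ, pairV F φ = pairV G φ) : F = G :=
  funext fun v => by rw [← pairV_single F v, h, pairV_single]

omit [DecidableEq V] in
theorem pairV_add (F G φ : V → ℂ) : pairV (F + G) φ = pairV F φ + pairV G φ := by
  simp [pairV, add_mul, Finset.sum_add_distrib]

omit [DecidableEq V] in
theorem pairV_sub (F G φ : V → ℂ) : pairV (F - G) φ = pairV F φ - pairV G φ := by
  simp [pairV, sub_mul, Finset.sum_sub_distrib]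

omit [DecidableEq V] in
theorem pairV_smul (c : ℂ) (F φ : V → ℂ) : pairV (c • F) φ = c * pairV F φ := by
  simp [pairV, Finset.mul_sum, mul_assoc]

omit [DecidableEq V] in
theorem pairV_sum {ι : Type*} (s : Finset ι) (F : ι → V → ℂ) (φ : V → ℂ) :
    pairV (∑ i ∈ s, F i) φ = ∑ i ∈ s, pairV (F i) φ := by
  simp only [pairV, Finset.sum_apply, Finset.sum_mul]
  exact Finset.sum_comm

/-- The base point `i` from which periods are measured. -/
abbrev basePt : ℍ := UpperHalfPlane.I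

variable (M : ℕ) (W W' : Representation ℂ SL(2, ℤ) (V → ℂ))

/-- A family of weight-two functions: `h φ` is holomorphic, vanishes at all cusps, and
`h φ ∣ γ = h (W γ⁻¹ φ)` for `γ ∈ Γ₀(M)`. -/
structure IsTwoFam (h : (V → ℂ) →ₗ[ℂ] (ℍ → ℂ)) : Prop where
  mdiff : ∀ φ, MDiff (h φ)
  zero : ∀ φ, ∀ c : OnePoint ℝ, IsCusp c 𝒮ℒ → c.IsZeroAt (h φ) (2 : ℤ)
  law : ∀ γ : SL(2, ℤ), γ ∈ Gamma0 M → ∀ φ, h φ ∣[(2 : ℤ)] γ = h (W γ⁻¹ φ)

/-- `W'` is dual to `W`. -/
def IsDualRep : Prop := ∀ (g : SL(2, ℤ)) (F φ : V → ℂ), pairV (W' g F) φ = pairV F (W g⁻¹ φ)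

/-- The families for `W`, as a subspace. -/
def twoSpace : Submodule ℂ ((V → ℂ) →ₗ[ℂ] (ℍ → ℂ)) where
  carrier := {h | IsTwoFam M W h}
  zero_mem' :=
    { mdiff := fun _ => mdifferentiable_const
      zero := fun _ c _ g _ => by
        rw [LinearMap.zero_apply, SlashAction.zero_slash]
        exact Filter.zero_zeroAtFilter _
      law := fun γ _ φ => by simp only [LinearMap.zero_apply, SlashAction.zero_slash] }
  add_mem' {a b} ha hb :=
    { mdiff := fun φ => (ha.mdiff φ).add (hb.mdiff φ)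
      zero := fun φ c hc => (ha.zero φ c hc).add (hb.zero φ c hc)
      law := fun γ hγ φ => by
        simp only [LinearMap.add_apply, SlashAction.add_slash, ha.law γ hγ, hb.law γ hγ] }
  smul_mem' c {h} hh :=
    { mdiff := fun φ => (hh.mdiff φ).const_smul c
      zero := fun φ p hp g hg => by
        rw [LinearMap.smul_apply, ModularForm.smul_slash]
        exact (hh.zero φ p hp g hg).smul _
      law := fun γ hγ φ => by
        simp only [LinearMap.smul_apply, ModularForm.SL_smul_slash, hh.law γ hγ] }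

/-- `T_ℓ` on families. -/
def heckeTwoFam (ℓ D : ℕ) [NeZero ℓ] : Module.End ℂ ((V → ℂ) →ₗ[ℂ] (ℍ → ℂ)) where
  toFun h :=
    { toFun := fun φ => heckeTwo ℓ D (h φ)
      map_add' := fun a b => by rw [map_add, heckeTwo_add]
      map_smul' := fun c a => by rw [map_smul, heckeTwo_smul, RingHom.id_apply] }
  map_add' a b := LinearMap.ext fun φ => heckeTwo_add (a φ) (b φ)
  map_smul' c a := LinearMap.ext fun φ => heckeTwo_smul c (a φ)

variable {M W W'}

theorem conj_T_zpow_mem (δ : SL(2, ℤ)) (n : ℕ) {m : ℤ} (hm : (n : ℤ) ∣ m) :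
    δ * ModularGroup.T ^ m * δ⁻¹ ∈ CongruenceSubgroup.Gamma n :=
  (Gamma_normal n).conj_mem _ (by simpa using ModularGroup_T_pow_mem_Gamma (n : ℤ) m hm) δ

theorem upperConj_inv {ℓ : ℕ} [NeZero ℓ] (u : upperSub M ℓ) :
    ((upperConj M ℓ u : Gamma0 M) : SL(2, ℤ))⁻¹ =
      ((upperConj M ℓ u⁻¹ : Gamma0 M) : SL(2, ℤ)) := by
  rw [map_inv]; rfl

omit [Fintype V] [DecidableEq V] in
theorem IsTwoFam.slash_eq {D : ℕ} {h : (V → ℂ) →ₗ[ℂ] (ℍ → ℂ)} (hh : IsTwoFam M W h)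
    (hW : ∀ g ∈ CongruenceSubgroup.Gamma D, W g = 1) {γ : SL(2, ℤ)} (hM : γ ∈ Gamma0 M)
    (hD : γ ∈ CongruenceSubgroup.Gamma D) (φ : V → ℂ) : h φ ∣[(2 : ℤ)] γ = h φ := by
  rw [hh.law γ hM, hW _ (inv_mem hD), Module.End.one_apply]

variable {D : ℕ} [NeZero M] [NeZero D] (hW : ∀ g ∈ CongruenceSubgroup.Gamma D, W g = 1)
  {h : (V → ℂ) →ₗ[ℂ] (ℍ → ℂ)} (hh : IsTwoFam M W h)

include hW hh

omit [NeZero M] [NeZero D] [Fintype V] [DecidableEq V] in
theorem IsTwoFam.periodic_slash (φ : V → ℂ) (δ : SL(2, ℤ)) :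
    Periodic ((h φ ∣[(2 : ℤ)] δ) ∘ ofComplex) ((M * D : ℕ) : ℝ) := by
  set N : ℕ := M * D with hN
  have hmem : δ * ModularGroup.T ^ (N : ℤ) * δ⁻¹ ∈ CongruenceSubgroup.Gamma N :=
    conj_T_zpow_mem δ N dvd_rfl
  have hM' : δ * ModularGroup.T ^ (N : ℤ) * δ⁻¹ ∈ Gamma0 M :=
    Ihara.Gamma0_le_mul M D (Grp.Gamma_le_Gamma0 _ hmem)
  have hD' : δ * ModularGroup.T ^ (N : ℤ) * δ⁻¹ ∈ CongruenceSubgroup.Gamma D :=
    Gamma_le_Gamma_of_dvd (Dvd.intro_left M rfl) hmem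
  intro w
  by_cases! hw : 0 < w.im
  · have hw' : 0 < (w + ((N : ℝ) : ℂ)).im := by simpa using hw
    simp only [Function.comp_apply, ofComplex_apply_of_im_pos hw', ofComplex_apply_of_im_pos hw]
    set τ : ℍ := ⟨w, hw⟩
    set g : ℍ → ℂ := h φ ∣[(2 : ℤ)] δ with hgdef
    have key : (g ∣[(2 : ℤ)] (ModularGroup.T ^ (N : ℤ))) τ = g τ := by
      rw [hgdef, ← SlashAction.slash_mul]
      have : δ * ModularGroup.T ^ (N : ℤ) = (δ * ModularGroup.T ^ (N : ℤ) * δ⁻¹) * δ := by group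
      rw [this, SlashAction.slash_mul, hh.slash_eq hW hM' hD']
    rw [slash_T_zpow] at key
    convert key using 2
    ext
    simp [τ, add_comm]
  · have hw' : (w + ((N : ℝ) : ℂ)).im ≤ 0 := by simpa using hw
    simp only [Function.comp_apply, ofComplex_apply_of_im_nonpos hw',
      ofComplex_apply_of_im_nonpos hw]

omit [Fintype V] [DecidableEq V] in
theorem IsTwoFam.exists_primitive (φ : V → ℂ) (δ : SL(2, ℤ)) :
    ∃ P : ℍ → ℂ, IsPrimitive (h φ ∣[(2 : ℤ)] δ) P ∧ Tendsto P atImInfty (𝓝 0) :=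
  exists_primitive_of_periodic (Nat.cast_pos.mpr (NeZero.pos (M * D))) (hh.periodic_slash hW φ δ)
    ((hh.mdiff φ).slash 2 (δ : GL (Fin 2) ℝ))
    ((OnePoint.isZeroAt_iff rfl).mp (hh.zero φ
      ((Matrix.SpecialLinearGroup.mapGL ℝ δ) • OnePoint.infty) (isCusp_SL2Z_iff'.mpr ⟨δ, rfl⟩)))

/-- The primitives of the values at the standard functions, combined linearly. -/
def IsTwoFam.prim (φ : V → ℂ) : ℍ → ℂ :=
  ∑ v, φ v • (hh.exists_primitive hW (Pi.single v 1) 1).choose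

/-- The chosen primitive is a primitive. -/
theorem IsTwoFam.isPrimitive_prim (φ : V → ℂ) : IsPrimitive (h φ) (hh.prim hW φ) := by
  have e : h φ = ∑ v, φ v • (h (Pi.single v 1) ∣[(2 : ℤ)] (1 : SL(2, ℤ))) := by
    conv_lhs => rw [pi_eq_sum_univ' φ]
    rw [map_sum]
    refine Finset.sum_congr rfl fun v _ => ?_
    rw [map_smul, SlashAction.slash_one]
  rw [e]
  exact IsPrimitive.sum _ fun v _ =>
    (hh.exists_primitive hW (Pi.single v 1) 1).choose_spec.1.const_smul _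

/-- The primitives are linear in the function. -/
theorem IsTwoFam.prim_apply (φ : V → ℂ) (τ : ℍ) :
    hh.prim hW φ τ = ∑ v, φ v * hh.prim hW (Pi.single v 1) τ := by
  simp only [IsTwoFam.prim, Finset.sum_apply, Pi.smul_apply, smul_eq_mul]
  refine Finset.sum_congr rfl fun v _ => ?_
  rw [Finset.sum_eq_single v (fun w _ hw => by rw [Pi.single_eq_of_ne hw, zero_mul]) (by simp),
    Pi.single_eq_same, one_mul]

/-- Increments of primitives of `h (L φ)` are linear in `φ`. -/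
theorem IsTwoFam.pairV_prim_sub (L : (V → ℂ) →ₗ[ℂ] (V → ℂ)) (τ τ₀ : ℍ) (φ : V → ℂ) :
    ∑ v, (hh.prim hW (L (Pi.single v 1)) τ - hh.prim hW (L (Pi.single v 1)) τ₀) * φ v =
      hh.prim hW (L φ) τ - hh.prim hW (L φ) τ₀ := by
  have e : ∀ w, L φ w = ∑ v, φ v * L (Pi.single v 1) w := fun w => by
    conv_lhs => rw [pi_eq_sum_univ' φ]
    simp only [map_sum, map_smul, Finset.sum_apply, Pi.smul_apply, smul_eq_mul]
  simp only [hh.prim_apply hW (L φ), e, hh.prim_apply hW (L (Pi.single _ 1)), sub_mul,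
    Finset.sum_sub_distrib, Finset.sum_mul]
  refine congrArg₂ (· - ·) ?_ ?_ <;>
  · rw [Finset.sum_comm]
    exact Finset.sum_congr rfl fun v _ => Finset.sum_congr rfl fun w _ => by ring

/-- The periods: increments of the primitives at the standard functions from `i` to `γ i`. -/
def IsTwoFam.per : Gamma0 M → V → ℂ := fun γ v =>
  hh.prim hW (Pi.single v 1) ((γ : SL(2, ℤ)) • basePt) - hh.prim hW (Pi.single v 1) basePt

/-- The periods are the increments of any primitive. -/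
theorem IsTwoFam.pairV_per (φ : V → ℂ) (γ : Gamma0 M) {F : ℍ → ℂ} (hF : IsPrimitive (h φ) F) :
    pairV (hh.per hW γ) φ = F ((γ : SL(2, ℤ)) • basePt) - F basePt := by
  have h1 := (hh.isPrimitive_prim hW φ).sub_eq_sub hF ((γ : SL(2, ℤ)) • basePt) basePt
  rw [hh.prim_apply hW φ, hh.prim_apply hW φ] at h1
  simp only [pairV, IsTwoFam.per, mul_comm _ (φ _)] at h1 ⊢
  simp only [mul_sub, Finset.sum_sub_distrib]
  linear_combination h1

omit hW hh [Fintype V] [DecidableEq V] [NeZero M] in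
theorem IsTwoFam.isPrimitive_smul (hh : IsTwoFam M W h) (γ : Gamma0 M) (φ : V → ℂ) {F : ℍ → ℂ}
    (hF : IsPrimitive (h φ) F) :
    IsPrimitive (h (W (γ : SL(2, ℤ))⁻¹ φ)) (fun z => F ((γ : SL(2, ℤ)) • z)) := by
  rw [← hh.law _ γ.2]
  exact hF.comp_smul _

variable (hdual : IsDualRep W W')
include hdual

/-- The periods form a crossed homomorphism for the dual representation. -/
theorem IsTwoFam.per_mem_cocycles : hh.per hW ∈ cocycles (resLow M W') := by
  intro g g'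
  refine ext_pairV fun φ => ?_
  have hF := hh.isPrimitive_prim hW φ
  rw [pairV_add, show pairV (resLow M W' g (hh.per hW g')) φ =
      pairV (hh.per hW g') (W (g : SL(2, ℤ))⁻¹ φ) from hdual _ _ _,
    hh.pairV_per hW _ _ hF, hh.pairV_per hW _ _ hF,
    hh.pairV_per hW _ _ (hh.isPrimitive_smul g φ hF), Subgroup.coe_mul, mul_smul]
  ring

/-- **Principal periods come from the zero family only.** -/
theorem IsTwoFam.eq_zero_of_per_mem (hp : hh.per hW ∈ coboundaries (resLow M W')) : h = 0 := by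
  obtain ⟨a, ha⟩ := (mem_coboundaries _).mp hp
  refine LinearMap.ext fun φ => ?_
  set F := hh.prim hW φ
  have hF := hh.isPrimitive_prim hW φ
  set Γ : Subgroup SL(2, ℤ) := Gamma0 M ⊓ CongruenceSubgroup.Gamma D
  have hinv : ∀ γ ∈ Γ, ∀ z, F (γ • z) = F z := fun γ hγ z => by
    have h2 : IsPrimitive (h φ) (fun z => F (γ • z)) := by
      have := hh.isPrimitive_smul ⟨γ, hγ.1⟩ φ hF
      rwa [hW _ (inv_mem hγ.2), Module.End.one_apply] at this
    have h3 := h2.sub_eq_sub hF z basePt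
    have h4 := hh.pairV_per hW φ ⟨γ, hγ.1⟩ hF
    rw [ha, pairV_sub, show pairV (resLow M W' ⟨γ, hγ.1⟩ a) φ = pairV a (W γ⁻¹ φ) from hdual _ _ _,
      hW _ (inv_mem hγ.2), Module.End.one_apply, sub_self] at h4
    linear_combination h3 - h4
  have : NeZero (M * D) := inferInstance
  have hconst : ∀ z w, F z = F w := by
    refine eq_const_of_re_period_eq_zero (N := M * D) Γ (fun δ => ⟨?_, ?_⟩) hF.mdifferentiable
      (fun γ hγ => ⟨0, by simp, fun z => by rw [hinv γ hγ z, add_zero]⟩) fun δ => ?_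
    · exact Ihara.Gamma0_le_mul M D (Grp.Gamma_le_Gamma0 _ (conj_T_zpow_mem δ (M * D) dvd_rfl))
    · exact conj_T_zpow_mem δ D (Int.natCast_dvd_natCast.mpr (Dvd.intro_left M rfl))
    · obtain ⟨P, hP, hP0⟩ := hh.exists_primitive hW φ δ
      refine ⟨F (δ • basePt) - P basePt, ?_⟩
      have := (tendsto_const_nhds (x := F (δ • basePt) - P basePt)).add hP0
      rw [add_zero] at this
      refine this.congr fun w => ?_
      linear_combination -((hF.comp_smul δ).sub_eq_sub hP w basePt)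
  funext τ
  have h0 : HasDerivAt (F ∘ ofComplex) 0 (τ : ℂ) := by
    rw [show F ∘ ofComplex = fun _ => F τ from funext fun x => hconst _ _]
    exact hasDerivAt_const _ _
  exact (hF τ).unique h0

omit hdual in
/-- The periods are equivariant for symmetries of the family. -/
theorem IsTwoFam.per_apply_equiv (L : V ≃ V) (c : ℂ) (hL : ∀ φ, h (φ ∘ L) = c • h φ)
    (γ : Gamma0 M) (v : V) : hh.per hW γ v = c * hh.per hW γ (L v) := by
  have e : (Pi.single (L v) (1 : ℂ)) ∘ L = Pi.single v 1 := funext fun w => by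
    simp [Pi.single_apply, L.injective.eq_iff]
  have hp : IsPrimitive (h (Pi.single v 1)) (c • hh.prim hW (Pi.single (L v) 1)) := by
    rw [← e, hL]
    exact (hh.isPrimitive_prim hW _).const_smul c
  rw [← pairV_single (hh.per hW γ) v, hh.pairV_per hW _ γ hp, IsTwoFam.per]
  simp only [Pi.smul_apply, smul_eq_mul]
  ring

section Hecke

variable {ℓ : ℕ} [NeZero ℓ] (hℓ : ℓ.Prime) (hn : ¬ ℓ ∣ M * D) (hℓD : (D : ℤ) ∣ (ℓ : ℤ) - 1)
include hℓ hn hℓD

omit hh hdual [NeZero D] [Fintype V] [DecidableEq V] in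
/-- `T_ℓ` of a member as a sum over the representatives `lowSec`. -/
theorem IsTwoFam.heckeTwo_eq (hh : IsTwoFam M W h) (φ : V → ℂ) :
    heckeTwo ℓ D (h φ) = ∑ q : Gamma0 M ⧸ upperSub M ℓ,
      h (W ((lowSec hℓ hn q : Gamma0 M) : SL(2, ℤ))⁻¹ φ) ∣[(2 : ℤ)]
        (dUp ℓ * (((lowSec hℓ hn q)⁻¹ : Gamma0 M) : SL(2, ℤ))) := by
  obtain ⟨t, ht, htD, hsum⟩ := exists_reps (l := ℓ) (M := M) (D := D) hℓ hn hℓD
  rw [hsum _ fun g hg hg' => hh.slash_eq hW hg hg' φ,
    ← (Equiv.ofBijective _ ht).sum_comp fun q => h (W ((lowSec hℓ hn q : Gamma0 M) : SL(2, ℤ))⁻¹ φ)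
      ∣[(2 : ℤ)] (dUp ℓ * (((lowSec hℓ hn q)⁻¹ : Gamma0 M) : SL(2, ℤ)))]
  refine Finset.sum_congr rfl fun i _ => ?_
  rw [Equiv.ofBijective_apply]
  set r := lowSec hℓ hn (t i : Gamma0 M ⧸ upperSub M ℓ)
  have hu : r⁻¹ * t i ∈ upperSub M ℓ := QuotientGroup.eq.mp (lowSec_spec hℓ hn _)
  set u : upperSub M ℓ := ⟨_, hu⟩
  have e1 : dUp ℓ * (((r⁻¹ : Gamma0 M) : SL(2, ℤ)) : GL (Fin 2) ℝ) =
      (((upperConj M ℓ u : Gamma0 M) : SL(2, ℤ)) : GL (Fin 2) ℝ) *
        (dUp ℓ * ((((t i)⁻¹ : Gamma0 M) : SL(2, ℤ)) : GL (Fin 2) ℝ)) := by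
    rw [← mul_assoc, ← dUp_mul_gamma u, mul_assoc]
    simp only [← map_mul]
    congr 3
    show ((r⁻¹ : Gamma0 M) : SL(2, ℤ)) = ((r⁻¹ * t i : Gamma0 M) : SL(2, ℤ)) * _
    push_cast
    group
  rw [e1, SlashAction.slash_mul _ (((upperConj M ℓ u : Gamma0 M) : SL(2, ℤ)) : GL (Fin 2) ℝ),
    ← ModularForm.SL_slash, hh.law _ (upperConj M ℓ u).2, upperConj_inv,
    rep_upperConj W hW hℓD]
  refine congrArg (· ∣[(2 : ℤ)] _) (congrArg h ?_)
  rw [rep_apply_mul, show (((u⁻¹ : upperSub M ℓ) : Gamma0 M) : SL(2, ℤ)) * (r : SL(2, ℤ))⁻¹ =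
      (((t i : Gamma0 M) : SL(2, ℤ)))⁻¹ by
    show ((((r⁻¹ * t i)⁻¹ : Gamma0 M)) : SL(2, ℤ)) * _ = _
    push_cast
    group]
  rw [hW _ (inv_mem (htD i)), Module.End.one_apply]

omit hh hdual [Fintype V] [DecidableEq V] [NeZero D] in
theorem IsTwoFam.heckeTwo_law (hh : IsTwoFam M W h) {γ : SL(2, ℤ)} (hγ : γ ∈ Gamma0 M)
    (φ : V → ℂ) : heckeTwo ℓ D (h φ) ∣[(2 : ℤ)] γ = heckeTwo ℓ D (h (W γ⁻¹ φ)) := by
  rw [hh.heckeTwo_eq hW hℓ hn hℓD, hh.heckeTwo_eq hW hℓ hn hℓD, SlashAction.sum_slash]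
  refine Fintype.sum_equiv (MulAction.toPerm (⟨γ, hγ⟩ : Gamma0 M)⁻¹) _ _ fun q => ?_
  simp only [MulAction.toPerm_apply]
  set g : Gamma0 M := ⟨γ, hγ⟩
  set q' := g⁻¹ • q
  have hq : g • q' = q := smul_inv_smul g q
  set u : upperSub M ℓ := ⟨_, cocycle_mem (lowSec hℓ hn) (lowSec_spec hℓ hn) g q'⟩
  have e1 : dUp ℓ * ((((lowSec hℓ hn q)⁻¹ : Gamma0 M) : SL(2, ℤ)) : GL (Fin 2) ℝ) *
      ((g : SL(2, ℤ)) : GL (Fin 2) ℝ) =
      (((upperConj M ℓ u : Gamma0 M) : SL(2, ℤ)) : GL (Fin 2) ℝ) *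
        (dUp ℓ * ((((lowSec hℓ hn q')⁻¹ : Gamma0 M) : SL(2, ℤ)) : GL (Fin 2) ℝ)) := by
    simp only [← mul_assoc]
    rw [← dUp_mul_gamma u]
    simp only [mul_assoc, ← map_mul]
    congr 3
    show _ = (((lowSec hℓ hn (g • q'))⁻¹ * (g * lowSec hℓ hn q') : Gamma0 M) : SL(2, ℤ)) * _
    rw [hq]
    push_cast
    group
  rw [ModularForm.SL_slash, ← SlashAction.slash_mul]
  show _ ∣[(2 : ℤ)] (dUp ℓ * _ * ((g : SL(2, ℤ)) : GL (Fin 2) ℝ)) = _
  rw [e1, SlashAction.slash_mul _ (((upperConj M ℓ u : Gamma0 M) : SL(2, ℤ)) : GL (Fin 2) ℝ),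
    ← ModularForm.SL_slash, hh.law _ (upperConj M ℓ u).2,
    upperConj_inv, rep_upperConj W hW hℓD, rep_apply_mul, rep_apply_mul]
  refine congrArg (· ∣[(2 : ℤ)] _) (congrArg h (LinearMap.congr_fun (congrArg W ?_) φ))
  show ((((lowSec hℓ hn (g • q'))⁻¹ * (g * lowSec hℓ hn q'))⁻¹ : Gamma0 M) : SL(2, ℤ)) * _ = _
  rw [hq]
  show _ = _ * ((g : SL(2, ℤ)))⁻¹
  push_cast
  group

omit hh hdual [Fintype V] [DecidableEq V] [NeZero D] in
/-- `T_ℓ` of a family is a family. -/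
theorem IsTwoFam.heckeTwo_fam (hh : IsTwoFam M W h) : IsTwoFam M W (heckeTwoFam ℓ D h) where
  mdiff φ := mdiff_heckeTwo (hh.mdiff φ)
  zero φ c hc := by
    show c.IsZeroAt (heckeTwo ℓ D (h φ)) _
    rw [heckeTwo]
    refine Finset.sum_induction _ (fun F => OnePoint.IsZeroAt c F (2 : ℤ))
      (fun a b ha hb => ha.add hb) (fun g _ => by
        rw [SlashAction.zero_slash]; exact Filter.zero_zeroAtFilter _) fun i _ => ?_
    exact Fermat.Agent.ResidualThree.isZeroAt_slash_intGL (hh.zero φ) _ hc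
  law γ hγ φ := hh.heckeTwo_law hW hℓ hn hℓD hγ φ

/-- **The periods of `T_ℓ h` are the transfer of the periods of `h`, up to principal ones.** -/
theorem IsTwoFam.per_heckeTwo_sub :
    (hh.heckeTwo_fam hW hℓ hn hℓD).per hW - heckeCoc W' hℓ hn (hh.per hW) ∈
      coboundaries (resLow M W') := by
  set H := hh.heckeTwo_fam hW hℓ hn hℓD
  set Mq : Gamma0 M ⧸ upperSub M ℓ → GL (Fin 2) ℝ := fun q =>
    dUp ℓ * (((lowSec hℓ hn q)⁻¹ : Gamma0 M) : SL(2, ℤ)) with hMq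
  have hdet : ∀ q, (0 : ℝ) < (Mq q).val.det := fun q => by
    have h1 : ((((lowSec hℓ hn q)⁻¹ : Gamma0 M) : SL(2, ℤ)) : GL (Fin 2) ℝ).val.det = 1 :=
      ((((lowSec hℓ hn q)⁻¹ : Gamma0 M) : SL(2, ℤ)).map (Int.castRingHom ℝ)).det_coe
    rw [hMq, Units.val_mul, Matrix.det_mul, ModularForm.val_heckeMatrix (NeZero.ne ℓ),
      Matrix.det_fin_two_of, h1]
    simpa using NeZero.pos ℓ
  set φq : (V → ℂ) → Gamma0 M ⧸ upperSub M ℓ → V → ℂ := fun φ q =>
    W ((lowSec hℓ hn q : Gamma0 M) : SL(2, ℤ))⁻¹ φ with hφq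
  -- the increment from the reference point
  set J : (V → ℂ) → ℂ := fun φ =>
    ∑ q, (hh.prim hW (φq φ q) (Mq q • basePt) - hh.prim hW (φq φ q) basePt) with hJ
  refine (mem_coboundaries _).mpr ⟨fun v => J (Pi.single v 1), fun γ => ext_pairV fun φ => ?_⟩
  have hlin : ∀ φ, pairV (fun v => J (Pi.single v 1)) φ = J φ := fun φ => by
    simp only [pairV, hJ, hφq, Finset.sum_mul]
    rw [Finset.sum_comm]
    exact Finset.sum_congr rfl fun q _ => hh.pairV_prim_sub hW _ _ _ φ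
  have hG : IsPrimitive (heckeTwoFam ℓ D h φ) (∑ q, fun z => hh.prim hW (φq φ q) (Mq q • z)) := by
    show IsPrimitive (heckeTwo ℓ D (h φ)) _
    rw [hh.heckeTwo_eq hW hℓ hn hℓD]
    exact IsPrimitive.sum _ fun q _ =>
      isPrimitive_comp_gl (hh.isPrimitive_prim hW _) (Mq q) (hdet q)
  rw [Pi.sub_apply, pairV_sub, H.pairV_per hW φ γ hG, pairV_sub,
    show pairV (resLow M W' γ (fun v => J (Pi.single v 1))) φ =
      pairV (fun v => J (Pi.single v 1)) (W (γ : SL(2, ℤ))⁻¹ φ) from hdual _ _ _, hlin, hlin,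
      heckeCoc,
    cocTransfer_apply, pairV_sum]
  set σ : Gamma0 M ⧸ upperSub M ℓ ≃ Gamma0 M ⧸ upperSub M ℓ := MulAction.toPerm γ
  set u : Gamma0 M ⧸ upperSub M ℓ → upperSub M ℓ := fun q =>
    ⟨_, cocycle_mem (lowSec hℓ hn) (lowSec_spec hℓ hn) γ q⟩
  have hφ' : ∀ q, φq (W (γ : SL(2, ℤ))⁻¹ φ) q =
      W ((upperConj M ℓ (u q) : Gamma0 M) : SL(2, ℤ))⁻¹ (φq φ (γ • q)) := fun q => by
    simp only [hφq]
    rw [upperConj_inv, rep_upperConj W hW hℓD, rep_apply_mul, rep_apply_mul]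
    refine LinearMap.congr_fun (congrArg W ?_) φ
    show _ = ((((lowSec hℓ hn (γ • q))⁻¹ * (γ * lowSec hℓ hn q))⁻¹ : Gamma0 M) : SL(2, ℤ)) * _
    push_cast
    group
  have key : ∀ q, Mq (γ • q) • ((γ : SL(2, ℤ)) • basePt) =
      ((upperConj M ℓ (u q) : Gamma0 M) : SL(2, ℤ)) • (Mq q • basePt) := fun q => by
    simp only [ModularGroup.sl_moeb, ← mul_smul]
    congr 1
    rw [hMq, ← mul_assoc, ← dUp_mul_gamma (u q), mul_assoc, mul_assoc]
    simp only [← map_mul]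
    congr 3
    show ((lowSec hℓ hn (γ • q))⁻¹ : Gamma0 M).1 * γ.1 =
      (((lowSec hℓ hn (γ • q))⁻¹ * (γ * lowSec hℓ hn q) : Gamma0 M)).1 *
        ((lowSec hℓ hn q)⁻¹ : Gamma0 M).1
    push_cast
    group
  have hterm : ∀ q, pairV (resLow M W' (lowSec hℓ hn (γ • q))
      ((LinearMap.id : (V → ℂ) →ₗ[ℂ] (V → ℂ)) (hh.per hW (upperConj M ℓ (u q))))) φ =
      hh.prim hW (φq φ (γ • q)) (((upperConj M ℓ (u q) : Gamma0 M) : SL(2, ℤ)) • basePt) -
        hh.prim hW (φq φ (γ • q)) basePt := fun q => by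
    rw [show pairV (resLow M W' (lowSec hℓ hn (γ • q))
        ((LinearMap.id : (V → ℂ) →ₗ[ℂ] (V → ℂ)) (hh.per hW (upperConj M ℓ (u q))))) φ =
      pairV (hh.per hW (upperConj M ℓ (u q))) (φq φ (γ • q)) from hdual _ _ _]
    exact hh.pairV_per hW _ _ (hh.isPrimitive_prim hW _)
  have hstep : ∀ q, hh.prim hW (φq φ (γ • q)) (Mq (γ • q) • ((γ : SL(2, ℤ)) • basePt)) -
      hh.prim hW (φq φ (γ • q)) (((upperConj M ℓ (u q) : Gamma0 M) : SL(2, ℤ)) • basePt) =
      hh.prim hW (φq (W (γ : SL(2, ℤ))⁻¹ φ) q) (Mq q • basePt) -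
        hh.prim hW (φq (W (γ : SL(2, ℤ))⁻¹ φ) q) basePt := fun q => by
    rw [key q]
    have h1 := (hh.isPrimitive_smul (upperConj M ℓ (u q)) _
      (hh.isPrimitive_prim hW (φq φ (γ • q)))).sub_eq_sub
      (by rw [← hφ' q]; exact hh.isPrimitive_prim hW (φq (W (γ : SL(2, ℤ))⁻¹ φ) q))
      (Mq q • basePt) basePt
    linear_combination h1
  simp only [Finset.sum_apply, hJ]
  rw [← σ.sum_comp fun q => hh.prim hW (φq φ q) (Mq q • (γ : SL(2, ℤ)) • basePt),
    ← σ.sum_comp fun q => (hh.prim hW (φq φ q) (Mq q • basePt) - hh.prim hW (φq φ q) basePt)]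
  simp only [Finset.sum_sub_distrib, σ, MulAction.toPerm_apply]
  have e2 := Finset.sum_congr rfl fun q (_ : q ∈ Finset.univ) => hstep q
  have e3 := Finset.sum_congr rfl fun q (_ : q ∈ Finset.univ) => hterm q
  have e4 : ∑ q, hh.prim hW (φq φ q) (Mq q • basePt) =
      ∑ q, hh.prim hW (φq φ (γ • q)) (Mq (γ • q) • basePt) :=
    (σ.sum_comp fun q => hh.prim hW (φq φ q) (Mq q • basePt)).symm
  simp only [Finset.sum_sub_distrib] at e2 e3
  linear_combination e2 - e3 - e4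

end Hecke

end Fermat.Agent.Raising.SquareRemoval
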