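import Fermat.Agent.Eis.Expansion
import Fermat.Agent.Periods.Range
import Fermat.Agent.Raising.SquareRemoval.PrimeField
import Fermat.Agent.Raising.SquareRemoval.Residual.Dual
import Fermat.Agent.Raising.SquareRemoval.Residual.Integral
import Fermat.Agent.Raising.SquareRemoval.Residual.Periods
import Fermat.Agent.Raising.SquareRemoval.Translates

/-!
# From a family of weight-two functions to a residual system at level `MD`

A family for the Weil representation of level `D` on `Γ₀(M)`, invariant under lower triangular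
matrices up to a character of three-power order, with an integral member congruent to a system of
eigenvalues, gives that system in `Hom_cl(Γ₀(MD), 𝔽₃)` provided it is non-Eisenstein at one prime.
-/

noncomputable section

namespace Fermat.Agent.Raising.SquareRemoval

open UpperHalfPlane CongruenceSubgroup ModularFormClass Function
open Fermat.Agent.Grp Fermat.Agent.Hecke Fermat.Agent.Ihara Fermat.Agent.Periods
open Fermat.Agent.ResidualThree (intGL smul_slash_intGL)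
open Fermat.Agent.ResidualThree.SquarefreeLevel (dMat det_dMat)
open scoped ModularForm MatrixGroups Manifold

variable {M D : ℕ} [NeZero M] [NeZero D]

/-- The arguments of a crossed homomorphism with values in functions. -/
abbrev CocDom (M D : ℕ) : Type := Gamma0 M × Vd (ZMod D)

/-! ### Functions with a symmetry -/

/-- Functions transforming by `chi` under the lower triangular matrices. -/
def chiSub (chi : EisQ (ZMod D) → EisQ (ZMod D) → ℂ) : Submodule ℂ (Vd (ZMod D) → ℂ) where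
  carrier := {F | ∀ x r y : EisQ (ZMod D), x * y = 1 → ∀ v, F v = chi x y * F (lowAct x r y v)}
  zero_mem' x r y _ v := by simp
  add_mem' {F G} hF hG x r y h v := by
    simp only [Pi.add_apply, hF x r y h v, hG x r y h v, mul_add]
  smul_mem' t {F} hF x r y h v := by
    simp only [Pi.smul_apply, smul_eq_mul, hF x r y h v]; ring

theorem rep_mem_chiSub (d : VdChar D ℂ) {chi : EisQ (ZMod D) → EisQ (ZMod D) → ℂ} (g : SL(2, ℤ))
    {F : Vd (ZMod D) → ℂ} (hF : F ∈ chiSub chi) : d.rep g F ∈ chiSub chi := fun x r y h v => by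
  have e : F = chi x y • (F ∘ lowAct x r y) := funext fun w => hF x r y h w
  conv_lhs => rw [e, map_smul, d.rep_comp_low h, Pi.smul_apply, comp_apply, smul_eq_mul]

/-- Currying identifies `CocDom M D → R` with functions `Γ₀(M) → Vd → R`. -/
abbrev cur (R : Type) [CommRing R] (M D : ℕ) :
    (CocDom M D → R) ≃ₗ[R] (Gamma0 M → Vd (ZMod D) → R) :=
  LinearEquiv.curry R R (Gamma0 M) (Vd (ZMod D))

variable (M) in
/-- Crossed homomorphisms with values in the functions with the symmetry. -/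
def cocVal (d : VdChar D ℂ) (chi : EisQ (ZMod D) → EisQ (ZMod D) → ℂ) :
    Submodule ℂ (CocDom M D → ℂ) :=
  (cocycles (resLow M d.rep) ⊓ Submodule.pi Set.univ fun _ => chiSub chi).comap
    (cur ℂ M D).toLinearMap

variable (M) in
/-- The principal ones among them. -/
def cobVal (d : VdChar D ℂ) (chi : EisQ (ZMod D) → EisQ (ZMod D) → ℂ) :
    Submodule ℂ (CocDom M D → ℂ) :=
  cocVal M d chi ⊓ (coboundaries (resLow M d.rep)).comap (cur ℂ M D).toLinearMap

omit [NeZero M] in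
theorem mem_cocVal {d : VdChar D ℂ} {chi : EisQ (ZMod D) → EisQ (ZMod D) → ℂ}
    {u : CocDom M D → ℂ} : u ∈ cocVal M d chi ↔
      cur ℂ M D u ∈ cocycles (resLow M d.rep) ∧ ∀ γ, cur ℂ M D u γ ∈ chiSub chi := by
  simp [cocVal, Submodule.mem_pi]

omit [NeZero M] in
theorem cocycle_delta (d : VdChar D ℂ) {ℓ : ℕ} [NeZero ℓ] (hℓD : (D : ℤ) ∣ (ℓ : ℤ) - 1)
    (h : upperSub M ℓ) (a : Vd (ZMod D) → ℂ) :
    (LinearMap.id : (Vd (ZMod D) → ℂ) →ₗ[ℂ] _) (resLow M d.rep (upperConj M ℓ h) a) =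
      resLow M d.rep (h : Gamma0 M) ((LinearMap.id : (Vd (ZMod D) → ℂ) →ₗ[ℂ] _) a) :=
  rep_upperConj d.rep (fun _ hg => d.rep_of_mem_Gamma hg) hℓD h a

/-- `T_ℓ` on the uncurried functions. -/
def valHecke {R : Type} [CommRing R] [IsDomain R] (d : VdChar D R) {ℓ : ℕ} [NeZero ℓ]
    (hℓ : ℓ.Prime) (hn : ¬ ℓ ∣ M * D) : Module.End R (CocDom M D → R) :=
  (cur R M D).symm.toLinearMap ∘ₗ (heckeCoc d.rep hℓ hn) ∘ₗ (cur R M D).toLinearMap

theorem cur_valHecke {R : Type} [CommRing R] [IsDomain R] (d : VdChar D R) {ℓ : ℕ} [NeZero ℓ]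
    (hℓ : ℓ.Prime) (hn : ¬ ℓ ∣ M * D) (u : CocDom M D → R) :
    cur R M D (valHecke d hℓ hn u) = heckeCoc d.rep hℓ hn (cur R M D u) := rfl

theorem valHecke_map {R R₁ : Type} [CommRing R] [CommRing R₁] [IsDomain R] [IsDomain R₁]
    (f : R →+* R₁) (d : VdChar D R) (d₁ : VdChar D R₁) (hψ : ∀ x, d₁.ψ x = f (d.ψ x)) {ℓ : ℕ}
    [NeZero ℓ] (hℓ : ℓ.Prime) (hn : ¬ ℓ ∣ M * D) (u : CocDom M D → R) (p : CocDom M D) :
    f (valHecke d hℓ hn u p) = valHecke d₁ hℓ hn (fun q => f (u q)) p :=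
  VdChar.heckeCoc_map f d d₁ hψ hℓ hn (cur R M D u) p.1 p.2

theorem valHecke_mem_cocVal {d : VdChar D ℂ} {chi : EisQ (ZMod D) → EisQ (ZMod D) → ℂ} {ℓ : ℕ}
    [NeZero ℓ] (hℓ : ℓ.Prime) (hn : ¬ ℓ ∣ M * D) (hℓD : (D : ℤ) ∣ (ℓ : ℤ) - 1)
    {u : CocDom M D → ℂ} (hu : u ∈ cocVal M d chi) :
    valHecke d hℓ hn u ∈ cocVal M d chi := by
  rw [mem_cocVal] at hu ⊢
  refine ⟨?_, fun γ => ?_⟩
  · rw [cur_valHecke]
    exact cocTransfer_mem_cocycles _ _ _ _ (cocycle_delta d hℓD) hu.1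
  · rw [cur_valHecke, heckeCoc, cocTransfer_apply]
    exact Submodule.sum_mem _ fun q _ => rep_mem_chiSub d _ (hu.2 _)

theorem valHecke_mem_cobVal {d : VdChar D ℂ} {chi : EisQ (ZMod D) → EisQ (ZMod D) → ℂ} {ℓ : ℕ}
    [NeZero ℓ] (hℓ : ℓ.Prime) (hn : ¬ ℓ ∣ M * D) (hℓD : (D : ℤ) ∣ (ℓ : ℤ) - 1)
    {u : CocDom M D → ℂ} (hu : u ∈ cobVal M d chi) : valHecke d hℓ hn u ∈ cobVal M d chi :=
  ⟨valHecke_mem_cocVal hℓ hn hℓD hu.1,
    cocTransfer_mem_coboundaries (resLow M d.rep) (upperConj M ℓ) (lowSec hℓ hn)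
      (lowSec_spec hℓ hn) (cocycle_delta d hℓD) hu.2⟩

/-- Integrality and vanishing of crossed homomorphisms are detected on generators. -/
theorem exists_finControl {O : ValuationSubring ℂ} (hO : O.valuation 3 < 1) (d : VdChar D ℂ)
    (chi : EisQ (ZMod D) → EisQ (ZMod D) → ℂ) :
    ∃ s, FinControl O (cocVal M d chi) s := by
  classical
  have := subgroup_fg_of_finiteIndex (Gamma0 M)
  obtain ⟨G, hG⟩ := (Group.FG.out : (⊤ : Subgroup (Gamma0 M)).FG)
  refine ⟨G ×ˢ (Finset.univ : Finset (Vd (ZMod D))), fun u hu hs => ?_, exists_notMem hO⟩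
  obtain ⟨hc, -⟩ := mem_cocVal.mp hu
  have hrep : ∀ (g : SL(2, ℤ)) (F : Vd (ZMod D) → ℂ), (∀ v, F v ∈ O) → ∀ v, d.rep g F v ∈ O :=
    fun g F hF v => by
      rw [← d.rep_coe hO g (fun w => ⟨F w, hF w⟩) v]
      exact SetLike.coe_mem _
  rintro ⟨γ, v⟩
  suffices h : ∀ v, cur ℂ M D u γ v ∈ O from h v
  have hγ : γ ∈ Subgroup.closure (G : Set (Gamma0 M)) := hG ▸ Subgroup.mem_top γ
  induction hγ using Subgroup.closure_induction with
  | mem g hg => exact fun v => hs (g, v) (Finset.mem_product.mpr ⟨hg, Finset.mem_univ v⟩)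
  | one => exact fun v => by rw [cocycles_apply_one hc]; exact zero_mem O
  | mul g g' _ _ h h' =>
    exact fun v => by rw [hc g g']; exact add_mem (h v) (hrep _ _ h' v)
  | inv g _ h =>
    exact fun v => by rw [cocycles_apply_inv hc]; exact neg_mem (hrep _ _ h v)

/-! ### Families with the symmetry -/

/-- The families with `h (φ ∘ lowAct x s y) = chi x y • h φ`. -/
def symFam (chi : EisQ (ZMod D) → EisQ (ZMod D) → ℂ) :
    Submodule ℂ ((Vd (ZMod D) → ℂ) →ₗ[ℂ] (ℍ → ℂ)) where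
  carrier := {h | ∀ x s y : EisQ (ZMod D), x * y = 1 → ∀ φ,
    h (φ ∘ lowAct x s y) = chi x y • h φ}
  zero_mem' x s y _ φ := by simp
  add_mem' {f g} hf hg x s y h φ := by
    simp only [LinearMap.add_apply, hf x s y h φ, hg x s y h φ, smul_add]
  smul_mem' t {f} hf x s y h φ := by
    simp only [LinearMap.smul_apply, hf x s y h φ, smul_comm t]

variable (M) in
/-- The weight-two families for `vd.rep` on `Γ₀(M)` with the symmetry `chi`. -/
def symFamSpace (vd : VdChar D ℂ) (chi : EisQ (ZMod D) → EisQ (ZMod D) → ℂ) :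
    Submodule ℂ ((Vd (ZMod D) → ℂ) →ₗ[ℂ] (ℍ → ℂ)) :=
  twoSpace M vd.rep ⊓ symFam chi

section Family

variable {vd : VdChar D ℂ} {chi : EisQ (ZMod D) → EisQ (ZMod D) → ℂ}

theorem isDualRep_dual (vd : VdChar D ℂ) : IsDualRep vd.rep vd.dual.rep := fun g F φ =>
  vd.dual_adjoint g F φ

theorem rep_trivial (vd : VdChar D ℂ) : ∀ g ∈ CongruenceSubgroup.Gamma D, vd.rep g = 1 :=
  fun _ hg => vd.rep_of_mem_Gamma hg

omit [NeZero M] in
theorem symFamSpace_two (v : symFamSpace M vd chi) : IsTwoFam M vd.rep v.1 := v.2.1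

omit [NeZero M] in
theorem IsTwoFam.periodic_D {h : (Vd (ZMod D) → ℂ) →ₗ[ℂ] (ℍ → ℂ)} (hh : IsTwoFam M vd.rep h)
    (φ : Vd (ZMod D) → ℂ) : Periodic (h φ ∘ ofComplex) (D : ℂ) := by
  have hM : ModularGroup.T ^ (D : ℤ) ∈ Gamma0 M := by
    rw [Gamma0_mem, ModularGroup.coe_T_zpow]
    simp
  have hD : ModularGroup.T ^ (D : ℤ) ∈ CongruenceSubgroup.Gamma D := by
    simpa using ModularGroup_T_pow_mem_Gamma (D : ℤ) (D : ℤ) dvd_rfl
  intro w
  by_cases! hw : 0 < w.im
  · have hw' : 0 < (w + (D : ℂ)).im := by simpa using hw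
    simp only [comp_apply, ofComplex_apply_of_im_pos hw', ofComplex_apply_of_im_pos hw]
    have key := congrFun (hh.slash_eq (rep_trivial vd) hM hD φ) ⟨w, hw⟩
    rw [slash_T_zpow] at key
    convert key using 2
    ext
    simp [add_comm]
  · have hw' : (w + (D : ℂ)).im ≤ 0 := by simpa using hw
    simp only [comp_apply, ofComplex_apply_of_im_nonpos hw', ofComplex_apply_of_im_nonpos hw]

omit [NeZero M] in
theorem IsTwoFam.bdd {h : (Vd (ZMod D) → ℂ) →ₗ[ℂ] (ℍ → ℂ)} (hh : IsTwoFam M vd.rep h)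
    (φ : Vd (ZMod D) → ℂ) : IsBoundedAtImInfty (h φ) := by
  have h0 := (OnePoint.isZeroAt_iff rfl).mp (hh.zero φ
    ((Matrix.SpecialLinearGroup.mapGL ℝ (1 : SL(2, ℤ))) • OnePoint.infty)
    (isCusp_SL2Z_iff'.mpr ⟨1, rfl⟩))
  rw [map_one, SlashAction.slash_one] at h0
  exact h0.isBoundedAtImInfty

omit [NeZero M] in
theorem IsTwoFam.goodFn_dMat {h : (Vd (ZMod D) → ℂ) →ₗ[ℂ] (ℍ → ℂ)} (hh : IsTwoFam M vd.rep h)
    (φ : Vd (ZMod D) → ℂ) : Eis.GoodFn 1 (h φ ∣[(2 : ℤ)] intGL (dMat D)) where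
  periodic := by
    simpa using (periodic_slash_dMat (NeZero.ne D) (h φ)).2 (hh.periodic_D φ)
  holo := (hh.mdiff φ).slash 2 _
  bdd := (isBoundedAtImInfty_slash_dMat (NeZero.ne D) (h φ)).2 (hh.bdd φ)

/-- The periods of a family, as a linear map to uncurried crossed homomorphisms. -/
def perLin : symFamSpace M vd chi →ₗ[ℂ] (CocDom M D → ℂ) where
  toFun v p := (symFamSpace_two v).per (rep_trivial vd) p.1 p.2
  map_add' v w := funext fun p => congrFun (ext_pairV fun φ => by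
    rw [(symFamSpace_two (v + w)).pairV_per (rep_trivial vd) φ p.1
      (((symFamSpace_two v).isPrimitive_prim (rep_trivial vd) φ).add
        ((symFamSpace_two w).isPrimitive_prim (rep_trivial vd) φ)), pairV_add,
      (symFamSpace_two v).pairV_per (rep_trivial vd) φ p.1
        ((symFamSpace_two v).isPrimitive_prim (rep_trivial vd) φ),
      (symFamSpace_two w).pairV_per (rep_trivial vd) φ p.1
        ((symFamSpace_two w).isPrimitive_prim (rep_trivial vd) φ)]
    simp only [Pi.add_apply]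
    ring : (symFamSpace_two (v + w)).per (rep_trivial vd) p.1 =
      (symFamSpace_two v).per (rep_trivial vd) p.1 + (symFamSpace_two w).per (rep_trivial vd) p.1)
      p.2
  map_smul' t v := funext fun p => congrFun (ext_pairV fun φ => by
    rw [(symFamSpace_two (t • v)).pairV_per (rep_trivial vd) φ p.1
      (((symFamSpace_two v).isPrimitive_prim (rep_trivial vd) φ).const_smul t), pairV_smul,
      (symFamSpace_two v).pairV_per (rep_trivial vd) φ p.1
        ((symFamSpace_two v).isPrimitive_prim (rep_trivial vd) φ)]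
    simp only [Pi.smul_apply, smul_eq_mul]
    ring : (symFamSpace_two (t • v)).per (rep_trivial vd) p.1 =
      t • (symFamSpace_two v).per (rep_trivial vd) p.1) p.2

theorem cur_perLin (v : symFamSpace M vd chi) :
    cur ℂ M D (perLin v) = (symFamSpace_two v).per (rep_trivial vd) := rfl

theorem perLin_mem (v : symFamSpace M vd chi) : perLin v ∈ cocVal M vd.dual chi := by
  rw [mem_cocVal, cur_perLin]
  refine ⟨(symFamSpace_two v).per_mem_cocycles (rep_trivial vd) (isDualRep_dual vd),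
    fun γ x r y h w => ?_⟩
  exact (symFamSpace_two v).per_apply_equiv (rep_trivial vd)
    (Equiv.ofBijective _ (VdChar.lowAct_bijective vd h)) _ (fun φ => v.2.2 x r y h φ) γ w

theorem eq_zero_of_perLin_mem {v : symFamSpace M vd chi} (h : perLin v ∈ cobVal M vd.dual chi) :
    v = 0 :=
  Subtype.ext ((symFamSpace_two v).eq_zero_of_per_mem (rep_trivial vd) (isDualRep_dual vd) h.2)

section Hecke

variable {ℓ : ℕ} [NeZero ℓ] (hℓ : ℓ.Prime) (hn : ¬ ℓ ∣ M * D) (hℓD : (D : ℤ) ∣ (ℓ : ℤ) - 1)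
include hℓ hn hℓD

theorem heckeTwoFam_mem {h : (Vd (ZMod D) → ℂ) →ₗ[ℂ] (ℍ → ℂ)} (hh : h ∈ symFamSpace M vd chi) :
    heckeTwoFam ℓ D h ∈ symFamSpace M vd chi :=
  ⟨IsTwoFam.heckeTwo_fam (rep_trivial vd) hℓ hn hℓD hh.1, fun x s y hxy φ => by
    show heckeTwo ℓ D (h (φ ∘ lowAct x s y)) = chi x y • heckeTwo ℓ D (h φ)
    rw [hh.2 x s y hxy φ, heckeTwo_smul]⟩

/-- `T_ℓ` on the space of families. -/
def famHecke : Module.End ℂ (symFamSpace M vd chi) :=
  (heckeTwoFam ℓ D).restrict fun _ hh => heckeTwoFam_mem hℓ hn hℓD hh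

theorem perLin_famHecke (v : symFamSpace M vd chi) :
    perLin (famHecke hℓ hn hℓD v) - valHecke vd.dual hℓ hn (perLin v) ∈
      cobVal M vd.dual chi :=
  ⟨sub_mem (perLin_mem _) (valHecke_mem_cocVal hℓ hn hℓD (perLin_mem v)),
    (symFamSpace_two v).per_heckeTwo_sub (rep_trivial vd) (isDualRep_dual vd) hℓ hn hℓD⟩

end Hecke

theorem famHecke_comm {ℓ ℓ' : ℕ} [NeZero ℓ] [NeZero ℓ'] (hℓ : ℓ.Prime) (hn : ¬ ℓ ∣ M * D)
    (hℓD : (D : ℤ) ∣ (ℓ : ℤ) - 1) (hℓ' : ℓ'.Prime) (hn' : ¬ ℓ' ∣ M * D)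
    (hℓD' : (D : ℤ) ∣ (ℓ' : ℤ) - 1) (v : symFamSpace M vd chi) :
    famHecke hℓ hn hℓD (famHecke hℓ' hn' hℓD' v) =
      famHecke hℓ' hn' hℓD' (famHecke hℓ hn hℓD v) :=
  Subtype.ext (LinearMap.ext fun φ => heckeTwo_comm hℓ hℓ' (NeZero.ne D)
    ((symFamSpace_two v).periodic_D φ) ((symFamSpace_two v).mdiff φ) ((symFamSpace_two v).bdd φ))

/-- The `q`-coefficients of `h φ₀ ∣ dMat D`. -/
abbrev famCoeff (φ₀ : Vd (ZMod D) → ℂ) (v : symFamSpace M vd chi) (n : ℕ) : ℂ :=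
  qCoeff (v.1 φ₀ ∣[(2 : ℤ)] intGL (dMat D)) n

omit [NeZero M] in
theorem famCoeff_add (φ₀ : Vd (ZMod D) → ℂ) (v w : symFamSpace M vd chi) (n : ℕ) :
    famCoeff φ₀ (v + w) n = famCoeff φ₀ v n + famCoeff φ₀ w n := by
  simp only [famCoeff, qCoeff, Submodule.coe_add, LinearMap.add_apply, SlashAction.add_slash]
  rw [qExpansion_add (((symFamSpace_two v).goodFn_dMat φ₀).analyticAt one_pos)
    (((symFamSpace_two w).goodFn_dMat φ₀).analyticAt one_pos), map_add]

omit [NeZero M] in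
theorem famCoeff_smul (φ₀ : Vd (ZMod D) → ℂ) (t : ℂ) (v : symFamSpace M vd chi) (n : ℕ) :
    famCoeff φ₀ (t • v) n = t * famCoeff φ₀ v n := by
  simp only [famCoeff, qCoeff, Submodule.coe_smul, LinearMap.smul_apply]
  rw [smul_slash_intGL (by rw [det_dMat]; exact_mod_cast NeZero.pos D),
    qExpansion_smul (((symFamSpace_two v).goodFn_dMat φ₀).analyticAt one_pos) t, map_smul,
    smul_eq_mul]

omit [NeZero M] in
/-- **Integral polynomials killing a congruent member have non-unit value at the system.** -/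
theorem eval_mem_of_kills (φ₀ : Vd (ZMod D) → ℂ) (h₀ : symFamSpace M vd chi)
    {O : ValuationSubring ℂ} (hint : ∀ n, famCoeff φ₀ h₀ n ∈ O)
    (hunit : ∃ n, O.valuation (famCoeff φ₀ h₀ n) = 1) {ι : Type} (e : ι → ℕ) (a : ι → ℤ)
    (hT : ∀ i, ∀ n, O.valuation (famCoeff φ₀ h₀ (e i * n) +
      (e i : ℂ) * (if e i ∣ n then famCoeff φ₀ h₀ (n / e i) else 0) -
      (a i : ℂ) * famCoeff φ₀ h₀ n) < 1)
    (φ : MvPolynomial ι O →+* Module.End ℂ (symFamSpace M vd chi))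
    (hX : ∀ (i : ι) (v : symFamSpace M vd chi) (n : ℕ), famCoeff φ₀ (φ (MvPolynomial.X i) v) n =
      famCoeff φ₀ v (e i * n) + (e i : ℂ) * (if e i ∣ n then famCoeff φ₀ v (n / e i) else 0))
    (hC : ∀ r : O, φ (MvPolynomial.C r) = (r : ℂ) • 1) (P : MvPolynomial ι O)
    (hP : φ P h₀ = 0) :
    MvPolynomial.eval (fun i => (a i : O)) P ∈ IsLocalRing.maximalIdeal O := by
  set res := IsLocalRing.residue O
  set t : MvPolynomial ι O → kRes O := fun Q => res (MvPolynomial.eval (fun i => (a i : O)) Q)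
    with ht
  set b : ℕ → O := fun n => ⟨_, hint n⟩ with hb
  have hTr : ∀ i n, res (b (e i * n) + (e i : O) * (if e i ∣ n then b (n / e i) else 0)) =
      res ((a i : O) * b n) := fun i n => by
    rw [← sub_eq_zero, ← map_sub, IsLocalRing.residue_eq_zero_iff]
    refine (O.valuation_lt_one_iff _).mpr ?_
    convert hT i n using 2
    simp only [hb]
    split_ifs <;> push_cast <;> ring
  have key : ∀ Q : MvPolynomial ι O, ∀ n, ∃ o : O, (o : ℂ) = famCoeff φ₀ (φ Q h₀) n ∧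
      res o = t Q * res (b n) := by
    intro Q
    induction Q using MvPolynomial.induction_on with
    | C r =>
      refine fun n => ⟨r * b n, ?_, by simp [ht, map_mul]⟩
      rw [hC, LinearMap.smul_apply, Module.End.one_apply, famCoeff_smul]
      rfl
    | add Q Q' hQ hQ' =>
      intro n
      obtain ⟨o, ho, ho'⟩ := hQ n
      obtain ⟨o₂, ho₂, ho₂'⟩ := hQ' n
      refine ⟨o + o₂, ?_, by simp [ht, map_add, ho', ho₂', add_mul]⟩
      rw [map_add, LinearMap.add_apply, famCoeff_add, ← ho, ← ho₂]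
      rfl
    | mul_X Q i hQ =>
      intro n
      choose o ho ho' using hQ
      refine ⟨o (e i * n) + (e i : O) * (if e i ∣ n then o (n / e i) else 0), ?_, ?_⟩
      · rw [mul_comm Q, map_mul, Module.End.mul_apply, hX, ← ho, ← ho (n / e i)]
        split_ifs <;> push_cast <;> ring
      · have h1 : res (o (e i * n) + (e i : O) * (if e i ∣ n then o (n / e i) else 0)) =
            t Q * res (b (e i * n) + (e i : O) * (if e i ∣ n then b (n / e i) else 0)) := by
          simp only [map_add, map_mul, apply_ite res, ho', map_zero]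
          split_ifs <;> ring
        rw [h1, hTr, map_mul]
        simp only [ht, map_mul, MvPolynomial.eval_X]
        ring
  obtain ⟨n, hn⟩ := hunit
  obtain ⟨o, ho, ho'⟩ := key P n
  have ho0 : o = 0 := Subtype.ext (by
    have h0 := famCoeff_smul φ₀ 0 h₀ n
    rw [zero_smul, zero_mul] at h0
    rw [ho, hP, h0]
    rfl)
  rw [ho0, map_zero, eq_comm, mul_eq_zero] at ho'
  refine (IsLocalRing.residue_eq_zero_iff _).mp (ho'.resolve_right fun h => ?_)
  exact ((O.valuation_lt_one_iff _).mp ((IsLocalRing.residue_eq_zero_iff _).mp h)).ne hn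

end Family

/-! ### From an integral eigenvector to level `MD` -/

section Reduced

variable {O : ValuationSubring ℂ} (hO : O.valuation 3 < 1) (d : VdChar D ℂ)
  (chi : EisQ (ZMod D) → EisQ (ZMod D) → ℂ)

/-- The reductions of the `O`-valued functions in `chiSub chi`. -/
abbrev resVal (O : ValuationSubring ℂ) : Submodule (kRes O) (Vd (ZMod D) → kRes O) :=
  redImage (intPts O (chiSub chi))

include hO in
theorem overK_rep_mem_resVal (g : SL(2, ℤ)) {f : Vd (ZMod D) → kRes O}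
    (hf : f ∈ resVal chi O) : (d.overK hO).rep g f ∈ resVal chi O := by
  obtain ⟨F, hF, rfl⟩ := hf
  refine ⟨(d.overO hO).rep g F, ?_, funext fun v => d.rep_residue hO g F v⟩
  rw [mem_intPts]
  convert rep_mem_chiSub d g hF using 1
  exact funext fun v => d.rep_coe hO g F v

/-- The reduced representation on `resVal chi O`. -/
def resValRep : Representation (kRes O) SL(2, ℤ) (resVal chi O) where
  toFun g := ((d.overK hO).rep g).restrict fun _ hf => overK_rep_mem_resVal hO d chi g hf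
  map_one' := LinearMap.ext fun x => Subtype.ext (by
    rw [LinearMap.coe_restrict_apply, map_one]; rfl)
  map_mul' g h := LinearMap.ext fun x => Subtype.ext (by
    rw [LinearMap.coe_restrict_apply, map_mul]; rfl)

omit [NeZero D] in
include hO in
theorem resVal_invariant (hchi : ∀ x y, x * y = 1 → ∃ k : ℕ, chi x y ^ 3 ^ k = 1)
    {f : Vd (ZMod D) → kRes O} (hf : f ∈ resVal chi O) (x r y : EisQ (ZMod D)) (h : x * y = 1)
    (v : Vd (ZMod D)) : f (lowAct x r y v) = f v := by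
  obtain ⟨F, hF, rfl⟩ := hf
  obtain ⟨k, hk⟩ := hchi x y h
  let c : O := ⟨chi x y, mem_of_pow_eq_one (pow_ne_zero _ (by norm_num)) hk⟩
  have e : F v = c * F (lowAct x r y v) := Subtype.ext (hF x r y h v)
  show IsLocalRing.residue O (F (lowAct x r y v)) = IsLocalRing.residue O (F v)
  rw [e, map_mul, residue_eq_one_of_root hO (x := c) hk, one_mul]

/-- On a principal crossed homomorphism `b`, `T_ℓ - (ℓ + 1)` is the principal class of the sum of
the values of `b` at the representatives. -/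
theorem valHecke_sub_eq_cobound {ℓ : ℕ} [NeZero ℓ] (hp : ℓ.Prime) (hn : ¬ ℓ ∣ M * D)
    (hℓD : (D : ℤ) ∣ (ℓ : ℤ) - 1) {b : CocDom M D → ℂ} {α : Vd (ZMod D) → ℂ}
    (hα : cobound (resLow M d.rep) α = cur ℂ M D b) (γ : Gamma0 M) (v : Vd (ZMod D)) :
    valHecke d hp hn b (γ, v) - ((ℓ + 1 : ℕ) : ℂ) * b (γ, v) =
      d.rep (γ : SL(2, ℤ)) (fun w => ∑ q, b (lowSec hp hn q, w)) v -
        ∑ q, b (lowSec hp hn q, v) := by
  have hsum : ∑ q, resLow M d.rep (lowSec hp hn q) α =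
      (fun w => ∑ q, b (lowSec hp hn q, w)) + ((ℓ + 1 : ℕ) : ℂ) • α := by
    have h1 : ∀ q, resLow M d.rep (lowSec hp hn q) α =
        cur ℂ M D b (lowSec hp hn q) + α := fun q => by
      rw [← hα, cobound_apply, sub_add_cancel]
    rw [Finset.sum_congr rfl fun q _ => h1 q, Finset.sum_add_distrib, Finset.sum_const,
      Finset.card_univ, ← Nat.card_eq_fintype_card, card_upperQuot hp hn,
      Nat.cast_smul_eq_nsmul]
    congr 1
    exact funext fun w => by simp [Finset.sum_apply]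
  have h2 : valHecke d hp hn b (γ, v) =
      cobound (resLow M d.rep) (∑ q, resLow M d.rep (lowSec hp hn q) α) γ v := by
    show heckeCoc d.rep hp hn (cur ℂ M D b) γ v = _
    rw [← hα, heckeCoc, cocTransfer_cobound _ _ _ _ (cocycle_delta d hℓD)]
    rfl
  have h3 : b (γ, v) = cobound (resLow M d.rep) α γ v := congrFun (congrFun hα.symm γ) v
  rw [h2, h3, hsum]
  simp only [cobound_apply, map_add, map_smul, Pi.sub_apply, Pi.add_apply, Pi.smul_apply,
    smul_eq_mul, MonoidHom.comp_apply, Subgroup.coe_subtype]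
  ring

omit [NeZero M] in
include hO in
/-- A class that is non-zero modulo the maximal ideal and integral coboundaries stays outside
their reduction and the principal classes. -/
theorem notMem_sup_of_intPts {l : CocDom M D → O}
    (hl0 : ∀ b ∈ intPts O (cobVal M d chi), ∃ p, l p - b p ∉ IsLocalRing.maximalIdeal O)
    {E : Submodule (kRes O) (Gamma0 M → resVal chi O)}
    (hE : ∀ e ∈ E, ∃ b ∈ intPts O (cobVal M d chi), ∀ γ v,
      (e γ : Vd (ZMod D) → kRes O) v = IsLocalRing.residue O (b (γ, v)))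
    {z : Gamma0 M → resVal chi O}
    (hz : ∀ γ v, (z γ : Vd (ZMod D) → kRes O) v = IsLocalRing.residue O (l (γ, v))) :
    z ∉ E ⊔ coboundaries (resLow M (resValRep hO d chi)) := by
  set res := IsLocalRing.residue O with hres
  set ρA := resValRep hO d chi
  set ρK := (d.overK hO).rep
  intro hmem'
  obtain ⟨e, he, _, ⟨⟨f, F, hF, hFf⟩, rfl⟩, hsum⟩ := Submodule.mem_sup.mp hmem'
  obtain ⟨b, hb, hbe⟩ := hE e he
  let cF : CocDom M D → O := fun p => (d.overO hO).rep p.1 F p.2 - F p.2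
  have hcur : cur ℂ M D (fun p => (cF p : ℂ)) =
      cobound (resLow M d.rep) (fun v => (F v : ℂ)) := funext fun γ => funext fun v => by
    show ((cF (γ, v) : O) : ℂ) = _
    simp only [cF, AddSubgroupClass.coe_sub, d.rep_coe hO]
    rfl
  have hcF : cF ∈ intPts O (cobVal M d chi) := by
    rw [mem_intPts]
    refine ⟨mem_cocVal.mpr ⟨?_, fun γ => ?_⟩, ?_⟩
    · rw [hcur]; exact coboundaries_le (resLow M d.rep) ⟨_, rfl⟩
    · rw [hcur]; exact sub_mem (rep_mem_chiSub d _ hF) hF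
    · show cur ℂ M D (fun p => (cF p : ℂ)) ∈ coboundaries (resLow M d.rep)
      rw [hcur]
      exact ⟨_, rfl⟩
  obtain ⟨⟨γ, v⟩, hp⟩ := hl0 (b + cF) (add_mem hb hcF)
  refine hp ((IsLocalRing.residue_eq_zero_iff _).mp ?_)
  have h1 : (z γ : Vd (ZMod D) → kRes O) v = (e γ : Vd (ZMod D) → kRes O) v +
      (cobound (resLow M ρA) ⟨f, F, hF, hFf⟩ γ : Vd (ZMod D) → kRes O) v := by
    rw [← hsum]; rfl
  rw [hz, hbe, cobound_apply] at h1
  show res (l (γ, v) - (b (γ, v) + cF (γ, v))) = 0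
  rw [map_sub, map_add, sub_eq_zero]
  refine h1.trans (congrArg (res (b (γ, v)) + ·) ?_)
  rw [show cF (γ, v) = (d.overO hO).rep γ F v - F v from rfl, map_sub]
  simp only [hres, d.rep_residue hO]
  show ρK γ f v - f v = ρK γ (fun w => res (F w)) v - res (F v)
  rw [← hFf]

omit [NeZero M] in
/-- The reduction of an integral crossed homomorphism. -/
def redCoc (u : CocDom M D → O) (hu : u ∈ intPts O (cocVal M d chi)) :
    Gamma0 M → resVal chi O :=
  fun γ => ⟨fun v => IsLocalRing.residue O (u (γ, v)),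
    fun v => u (γ, v), (mem_cocVal.mp hu).2 γ, rfl⟩

/-- Reduction commutes with `T_ℓ`. -/
theorem heckeCoc_redCoc {ℓ : ℕ} [NeZero ℓ] (hℓ : ℓ.Prime) (hn : ¬ ℓ ∣ M * D)
    {u : CocDom M D → O} (hu : u ∈ intPts O (cocVal M d chi)) (γ : Gamma0 M) (v : Vd (ZMod D)) :
    (heckeCoc (resValRep hO d chi) hℓ hn (redCoc d chi u hu) γ : Vd (ZMod D) → kRes O) v =
      IsLocalRing.residue O (valHecke (d.overO hO) hℓ hn u (γ, v)) := by
  have h1 := cocTransfer_comp (σ := resLow M (d.overK hO).rep) (resLow M (resValRep hO d chi))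
    (upperConj M ℓ) (lowSec hℓ hn) (lowSec_spec hℓ hn) (resVal chi O).subtype (fun g x => rfl)
    LinearMap.id (δ := LinearMap.id) (fun _ => rfl) (redCoc d chi u hu)
  rw [valHecke_map (IsLocalRing.residue O) (d.overO hO) (d.overK hO) (fun _ => rfl) hℓ hn u (γ, v)]
  exact congrFun (congrFun h1 γ) v

/-- The classes to discard: reductions of integral principal crossed homomorphisms. -/
def discarded (M : ℕ) (d : VdChar D ℂ) (chi : EisQ (ZMod D) → EisQ (ZMod D) → ℂ)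
    (O : ValuationSubring ℂ) : Submodule (kRes O) (Gamma0 M → resVal chi O) :=
  (redImage (intPts O (cobVal M d chi))).comap
    ((cur (kRes O) M D).symm.toLinearMap ∘ₗ (resVal chi O).subtype.compLeft (Gamma0 M))

omit [NeZero M] in
theorem mem_discarded (e : Gamma0 M → resVal chi O) :
    e ∈ discarded M d chi O ↔ ∃ b ∈ intPts O (cobVal M d chi),
      ∀ γ v, (e γ : Vd (ZMod D) → kRes O) v = IsLocalRing.residue O (b (γ, v)) := by
  rw [discarded, Submodule.mem_comap, mem_redImage]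
  exact ⟨fun ⟨b, hb, h⟩ => ⟨b, hb, fun γ v => (congrFun h (γ, v)).symm⟩,
    fun ⟨b, hb, h⟩ => ⟨b, hb, funext fun p => (h p.1 p.2).symm⟩⟩

/-- The discarded classes are stable, with eigenvalue `2` at `ℓ₀ ≡ 1 (mod 3MD)`. -/
theorem isEisPart_discarded {S : Set ℕ} (hS : ∀ ℓ ∈ S, IsGoodIdx M D ℓ) {ℓ₀ : ℕ} (hℓ₀ : ℓ₀ ∈ S)
    (hℓ₀3 : ((3 * M * D : ℕ) : ℤ) ∣ (ℓ₀ : ℤ) - 1) :
    IsEisPart (resValRep hO d chi) (discarded M d chi O) S hS hℓ₀ := by
  set res := IsLocalRing.residue O with hres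
  have hTb : ∀ (ℓ : ℕ) [NeZero ℓ] (hℓ : ℓ.Prime) (hn : ¬ ℓ ∣ M * D) (b : CocDom M D → O) p,
      ((valHecke (d.overO hO) hℓ hn b p : O) : ℂ) =
        valHecke d hℓ hn (fun q => (b q : ℂ)) p :=
    fun ℓ _ hℓ hn b p => valHecke_map O.subtype (d.overO hO) d (fun _ => rfl) hℓ hn b p
  have hnz : ∀ ℓ ∈ S, NeZero ℓ := fun ℓ hℓ => ⟨(hS ℓ hℓ).prime.ne_zero⟩
  have hbe : ∀ (e : Gamma0 M → resVal chi O) (b : CocDom M D → O)
      (hb : b ∈ intPts O (cocVal M d chi)),
      (∀ γ v, (e γ : Vd (ZMod D) → kRes O) v = res (b (γ, v))) → e = redCoc d chi b hb :=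
    fun e b hb h => funext fun γ => Subtype.ext (funext fun v => h γ v)
  refine ⟨fun ℓ hℓ => ?_, ?_⟩
  · have := hnz ℓ hℓ
    intro e he
    obtain ⟨b, hb, hb'⟩ := (mem_discarded d chi e).mp he
    rw [hbe e b hb.1 hb']
    refine Submodule.mem_sup_left ((mem_discarded d chi _).mpr
      ⟨valHecke (d.overO hO) (hS ℓ hℓ).prime (hS ℓ hℓ).not_dvd b, ?_,
        fun γ v => heckeCoc_redCoc hO d chi _ _ hb.1 γ v⟩)
    rw [mem_intPts]
    simp only [hTb]
    exact valHecke_mem_cobVal _ _ (hS ℓ hℓ).cong_D hb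
  · have := hnz ℓ₀ hℓ₀
    intro e he
    obtain ⟨b, hb, hb'⟩ := (mem_discarded d chi e).mp he
    rw [hbe e b hb.1 hb']
    have hp := (hS ℓ₀ hℓ₀).prime
    have hn := (hS ℓ₀ hℓ₀).not_dvd
    obtain ⟨α, hα⟩ := hb.2
    set bC : CocDom M D → ℂ := fun q => (b q : ℂ)
    let G : Vd (ZMod D) → O := fun v => ∑ q, b (lowSec hp hn q, v)
    have hGmem : G ∈ intPts O (chiSub chi) := by
      rw [mem_intPts, show (fun v => (G v : ℂ)) = ∑ q, cur ℂ M D bC (lowSec hp hn q) from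
        funext fun v => by simp [G, bC, Finset.sum_apply]]
      exact Submodule.sum_mem _ fun q _ => (mem_cocVal.mp hb.1).2 _
    have hC : ∀ γ v, valHecke d hp hn bC (γ, v) - ((ℓ₀ + 1 : ℕ) : ℂ) * bC (γ, v) =
        d.rep (γ : Gamma0 M) (fun w => (G w : ℂ)) v - (G v : ℂ) := fun γ v => by
      simp only [G, AddSubmonoidClass.coe_finsetSum]
      exact valHecke_sub_eq_cobound d hp hn (hS ℓ₀ hℓ₀).cong_D hα γ v
    refine (mem_coboundaries _).mpr ⟨⟨_, G, hGmem, rfl⟩,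
      fun γ => Subtype.ext (funext fun v => ?_)⟩
    have hO' : valHecke (d.overO hO) hp hn b (γ, v) - ((ℓ₀ + 1 : ℕ) : O) * b (γ, v) =
        (d.overO hO).rep (γ : Gamma0 M) G v - G v := Subtype.ext (by
      push_cast
      rw [hTb, d.rep_coe hO]
      exact_mod_cast hC γ v)
    have h4 := congrArg res hO'
    rw [map_sub, map_sub, map_mul, map_natCast, d.rep_residue hO,
      ← heckeCoc_redCoc hO d chi hp hn hb.1 γ v,
      Nat.cast_add, cast_eq_one_of_cong_three hℓ₀3 (three_eq_zero hO), Nat.cast_one,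
      one_add_one_eq_two] at h4
    exact h4

include hO in
/-- An integral crossed homomorphism, non-zero modulo the maximal ideal and integral principal
ones, with residual eigenvalues `a ℓ` non-Eisenstein at `ℓ₀` gives a residual eigenclass at level
`MD`. -/
theorem exists_level_of_integral (hMD : Nat.Coprime M D)
    (hfree : ∀ x : SL(2, ℤ) ⧸ Gamma0 M, R • x ≠ x)
    (hchi : ∀ x y, x * y = 1 → ∃ k : ℕ, chi x y ^ 3 ^ k = 1)
    {S : Set ℕ} (hS : ∀ ℓ ∈ S, IsGoodIdx M D ℓ) (a : ℕ → ℤ)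
    {l : CocDom M D → O} (hl : l ∈ intPts O (cocVal M d chi))
    (hl0 : ∀ b ∈ intPts O (cobVal M d chi), ∃ p, l p - b p ∉ IsLocalRing.maximalIdeal O)
    (hlT : ∀ (ℓ : ℕ) (hℓ : ℓ ∈ S), haveI : NeZero ℓ := ⟨(hS ℓ hℓ).prime.ne_zero⟩
      ∃ b ∈ intPts O (cobVal M d chi), ∀ p,
        valHecke (d.overO hO) (hS ℓ hℓ).prime (hS ℓ hℓ).not_dvd l p - (a ℓ : O) * l p - b p ∈
          IsLocalRing.maximalIdeal O)
    {ℓ₀ : ℕ} (hℓ₀ : ℓ₀ ∈ S) (hℓ₀3 : ((3 * M * D : ℕ) : ℤ) ∣ (ℓ₀ : ℤ) - 1)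
    (ha : (a ℓ₀ : ZMod 3) ≠ 2) :
    ∃ x : clH (ZMod 3) (M * D), x ≠ 0 ∧
      ∀ (ℓ : ℕ) [NeZero ℓ], ℓ ∈ S → clT (ZMod 3) (M * D) ℓ x = (a ℓ : ZMod 3) • x := by
  have := charP_three hO
  set res := IsLocalRing.residue O with hres
  set ρA := resValRep hO d chi
  set ρK := (d.overK hO).rep
  have hnz : ∀ ℓ ∈ S, NeZero ℓ := fun ℓ hℓ => ⟨(hS ℓ hℓ).prime.ne_zero⟩
  set z : Gamma0 M → resVal chi O := redCoc d chi l hl with hzdef
  have hz : z ∈ cocycles (resLow M ρA) := fun g g' => Subtype.ext (funext fun v => by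
    have h1 := congrFun ((mem_cocVal.mp hl).1 g g') v
    have h2 : l (g * g', v) = l (g, v) + (d.overO hO).rep g (fun w => l (g', w)) v :=
      Subtype.ext (by
        rw [AddMemClass.coe_add, d.rep_coe hO]
        exact h1)
    show res (l (g * g', v)) = res (l (g, v)) + ρK g (fun w => res (l (g', w))) v
    rw [h2, map_add, d.rep_residue hO])
  -- the class is not discarded
  have hz0 : z ∉ discarded M d chi O ⊔ coboundaries (resLow M ρA) :=
    notMem_sup_of_intPts hO d chi hl0 (fun e he => (mem_discarded d chi e).mp he) fun γ v => rfl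
  -- eigenvector
  have heig : IsEigenClass ρA (discarded M d chi O) z S (fun ℓ => (a ℓ : kRes O)) hS := by
    intro ℓ hℓ
    have := hnz ℓ hℓ
    obtain ⟨b, hb, hbT⟩ := hlT ℓ hℓ
    refine Submodule.mem_sup_left ((mem_discarded d chi _).mpr ⟨b, hb, fun γ v => ?_⟩)
    show (heckeCoc ρA _ _ z γ : Vd (ZMod D) → kRes O) v - (a ℓ : kRes O) * res (l (γ, v)) = _
    rw [hzdef, heckeCoc_redCoc hO d chi _ _ hl γ v, ← map_intCast res, ← map_mul, ← map_sub,
      ← sub_eq_zero, ← map_sub]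
    exact (IsLocalRing.residue_eq_zero_iff _).mpr (hbT (γ, v))
  -- the embedding
  let ι : resVal chi O →ₗ[kRes O] transSpan ρK D := LinearMap.codRestrict _ (resVal chi O).subtype
    fun x => (d.overK hO).mem_transSpan fun u r w h v =>
      resVal_invariant hO chi hchi x.2 u r w h v
  have hι : Injective ι := fun x y h => Subtype.ext (congrArg Subtype.val h :)
  have hc0 : ((a ℓ₀ : kRes O)) ≠ 2 := fun h => ha (by
    have h1 : ((a ℓ₀ - 2 : ℤ) : kRes O) = 0 := by push_cast; rw [h, sub_self]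
    rw [CharP.intCast_eq_zero_iff (kRes O) 3] at h1
    have h2 : ((a ℓ₀ - 2 : ℤ) : ZMod 3) = 0 := (ZMod.intCast_zmod_eq_zero_iff_dvd _ _).mpr h1
    push_cast at h2
    exact sub_eq_zero.mp h2)
  obtain ⟨x, hx, hx'⟩ := exists_eigen_level (k := kRes O) (J := FixedIdx ρK D) (ρA := ρA)
    (ρQ := transRep ρK D) hMD (three_eq_zero hO) hfree
    ι hι (fun g y => rfl) (transCover ρK D) (transCover_surjective ρK D)
    (transCover_equivariant ρK D) hS hz hz0 heig hℓ₀ hℓ₀3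
    (isEisPart_discarded hO d chi hS hℓ₀ hℓ₀3) hc0
  exact exists_eigen_zmod (M * D) S a x hx hx'

end Reduced

/-- **A congruent family gives the residual system at level `MD`.** -/
theorem exists_residual_level {M D : ℕ} [NeZero M] [NeZero D] (hMD : Nat.Coprime M D)
    (hfree : ∀ x : SL(2, ℤ) ⧸ Gamma0 M, R • x ≠ x) (vd : VdChar D ℂ)
    (chi : EisQ (ZMod D) → EisQ (ZMod D) → ℂ)
    (hchi : ∀ x y, x * y = 1 → ∃ k : ℕ, chi x y ^ 3 ^ k = 1)
    (h : (Vd (ZMod D) → ℂ) →ₗ[ℂ] (ℍ → ℂ)) (hmd : ∀ φ, MDiff (h φ))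
    (hzero : ∀ φ (c : OnePoint ℝ), IsCusp c 𝒮ℒ → c.IsZeroAt (h φ) (2 : ℤ))
    (hlaw : ∀ g ∈ Gamma0 M, ∀ φ, h φ ∣[(2 : ℤ)] (g : SL(2, ℤ)) = h (vd.rep g⁻¹ φ))
    (hinv : ∀ x s y : EisQ (ZMod D), x * y = 1 → ∀ φ, h (φ ∘ lowAct x s y) = chi x y • h φ)
    (O : ValuationSubring ℂ) (hO : O.valuation 3 < 1) (φ₀ : Vd (ZMod D) → ℂ)
    (hint : ∀ n, qCoeff (h φ₀ ∣[(2 : ℤ)] intGL (dMat D)) n ∈ O)
    (hunit : ∃ n, O.valuation (qCoeff (h φ₀ ∣[(2 : ℤ)] intGL (dMat D)) n) = 1)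
    (S : Set ℕ) (hS : ∀ ℓ ∈ S, ℓ.Prime ∧ ¬ ℓ ∣ M * D ∧ (D : ℤ) ∣ (ℓ : ℤ) - 1) (a : ℕ → ℤ)
    (hT : ∀ ℓ ∈ S, ∀ n : ℕ, O.valuation (qCoeff (h φ₀ ∣[(2 : ℤ)] intGL (dMat D)) (ℓ * n) +
      (ℓ : ℂ) * (if ℓ ∣ n then qCoeff (h φ₀ ∣[(2 : ℤ)] intGL (dMat D)) (n / ℓ) else 0) -
      (a ℓ : ℂ) * qCoeff (h φ₀ ∣[(2 : ℤ)] intGL (dMat D)) n) < 1)
    {ℓ₀ : ℕ} (hℓ₀ : ℓ₀ ∈ S) (hℓ₀3 : ((3 * M * D : ℕ) : ℤ) ∣ (ℓ₀ : ℤ) - 1)
    (ha : (a ℓ₀ : ZMod 3) ≠ 2) :
    ∃ x : clH (ZMod 3) (M * D), x ≠ 0 ∧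
      ∀ (ℓ : ℕ) [NeZero ℓ], ℓ ∈ S → clT (ZMod 3) (M * D) ℓ x = (a ℓ : ZMod 3) • x := by
  have hS' : ∀ ℓ ∈ S, IsGoodIdx M D ℓ := fun ℓ hℓ => ⟨(hS ℓ hℓ).1, (hS ℓ hℓ).2.1, (hS ℓ hℓ).2.2⟩
  have hnz : ∀ i : S, NeZero i.1 := fun i => ⟨(hS' i.1 i.2).prime.ne_zero⟩
  set dd := vd.dual with hdd
  let h₀ : symFamSpace M vd chi := ⟨h, ⟨hmd, hzero, hlaw⟩, hinv⟩
  let T : S → Module.End ℂ (CocDom M D → ℂ) := fun i =>
    valHecke dd (hS' i.1 i.2).prime (hS' i.1 i.2).not_dvd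
  let T₀ : S → Module.End O (CocDom M D → O) := fun i =>
    valHecke (dd.overO hO) (hS' i.1 i.2).prime (hS' i.1 i.2).not_dvd
  let TH : S → Module.End ℂ (symFamSpace M vd chi) := fun i =>
    famHecke (hS' i.1 i.2).prime (hS' i.1 i.2).not_dvd (hS' i.1 i.2).cong_D
  obtain ⟨s, hs⟩ := exists_finControl (M := M) hO dd chi
  set B := cobVal M dd chi with hB
  set U := LinearMap.range (perLin (M := M) (vd := vd) (chi := chi)) ⊔ B with hU
  have hUle : U ≤ cocVal M dd chi := sup_le (by rintro _ ⟨v, rfl⟩; exact perLin_mem v) inf_le_left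
  have hTB : ∀ i, ∀ u ∈ B, T i u ∈ B := fun i u hu =>
    valHecke_mem_cobVal _ _ (hS' i.1 i.2).cong_D hu
  have hperT : ∀ i v, perLin (TH i v) - T i (perLin v) ∈ B := fun i v =>
    perLin_famHecke (hS' i.1 i.2).prime (hS' i.1 i.2).not_dvd (hS' i.1 i.2).cong_D v
  have hinj : ∀ v : symFamSpace M vd chi, perLin v ∈ B → v = 0 := fun v hv =>
    eq_zero_of_perLin_mem hv
  have hcommH : ∀ i j v, TH i (TH j v) = TH j (TH i v) := fun i j v =>
    famHecke_comm (hS' i.1 i.2).prime (hS' i.1 i.2).not_dvd (hS' i.1 i.2).cong_D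
      (hS' j.1 j.2).prime (hS' j.1 j.2).not_dvd (hS' j.1 j.2).cong_D v
  -- two steps: elaborating all arguments at once makes unification very slow
  have key := exists_residual_eigen (H := symFamSpace M vd chi) (hs.mono hUle) le_sup_right T T₀
    (fun i u p => valHecke_map O.subtype (dd.overO hO) dd (fun _ => rfl) _ _ u p)
    (fun i u hu => by
      obtain ⟨_, ⟨v, rfl⟩, b, hb, rfl⟩ := Submodule.mem_sup.mp hu
      have h1 := hperT i v
      rw [map_add]
      refine add_mem ?_ (Submodule.mem_sup_right (hTB i b hb))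
      have h0 : perLin (TH i v) ∈ U := Submodule.mem_sup_left ⟨_, rfl⟩
      have h2 := sub_mem h0 (Submodule.mem_sup_right h1)
      rw [sub_sub_cancel] at h2
      exact h2)
    hTB (perLin (M := M) (vd := vd) (chi := chi)) TH
  obtain ⟨l, hl, hl0, hlT⟩ := key (fun v => Submodule.mem_sup_left ⟨v, rfl⟩)
    (fun u hu => by
      obtain ⟨_, ⟨v, rfl⟩, b, hb, rfl⟩ := Submodule.mem_sup.mp hu
      exact ⟨v, by rwa [add_sub_cancel_left]⟩)
    hperT hinj hcommH
    (fun i => (a i.1 : O)) h₀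
    fun φ hX hC P hP => eval_mem_of_kills φ₀ h₀ hint hunit (fun i : S => i.1) (fun i => a i.1)
      (fun i n => hT i.1 i.2 n) φ
      (fun i v n => by
        rw [hX]
        exact qCoeff_heckeTwo (NeZero.ne D) ((symFamSpace_two v).periodic_D φ₀)
          ((symFamSpace_two v).mdiff φ₀) ((symFamSpace_two v).bdd φ₀) n)
      hC P hP
  exact exists_level_of_integral hO dd chi hMD hfree hchi hS' a
    (hUle hl) hl0
    (fun ℓ hℓ => hlT ⟨ℓ, hℓ⟩) hℓ₀ hℓ₀3 ha

end Fermat.Agent.Raising.SquareRemoval
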