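import Mathlib.Algebra.Module.Torsion.Basic
import Mathlib.Algebra.MvPolynomial.Eval
import Mathlib.LinearAlgebra.Eigenspace.Zero
import Mathlib.LinearAlgebra.Matrix.Charpoly.LinearMap
import Mathlib.RingTheory.Finiteness.Quotient
import Mathlib.RingTheory.Ideal.Quotient.Basic
import Mathlib.RingTheory.Valuation.ValuationSubring
import Mathlib.Tactic.LinearCombination

/-!
# Congruent systems of eigenvalues in lattices over a valuation ring

Commuting operators on the integral points of a finite-dimensional space have a residual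
eigenvector for every system that is not refuted by an integral polynomial in the operators.
-/

noncomputable section

namespace Fermat.Agent.Raising.SquareRemoval

open MvPolynomial

section CommEval

variable {R A ι : Type} [CommRing R] [Ring A] [Algebra R A]

/-- Evaluation of polynomials at pairwise commuting elements of an algebra. -/
def evalComm (T : ι → A) (hT : ∀ i j, T i * T j = T j * T i) : MvPolynomial ι R →ₐ[R] A :=
  haveI := Algebra.isMulCommutative_adjoin R (s := Set.range T) (by
    rintro _ ⟨i, rfl⟩ _ ⟨j, rfl⟩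
    exact hT i j)
  open scoped IsMulCommutative in
  (Algebra.adjoin R (Set.range T)).val.comp
    (aeval fun i => ⟨T i, Algebra.subset_adjoin ⟨i, rfl⟩⟩)

@[simp] theorem evalComm_X (T : ι → A) (hT : ∀ i j, T i * T j = T j * T i) (i : ι) :
    evalComm (R := R) T hT (X i) = T i := by simp [evalComm]

end CommEval

section Residual

variable {R κ W ι : Type} [CommRing R] [Field κ] [AddCommGroup W] [Module κ W]
  [FiniteDimensional κ W]

/-- Either there is an eigenvector, or a polynomial with value `1` at the system kills. -/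
theorem exists_annihilator (f : R →+* κ) (hf : Function.Surjective f)
    (φ : MvPolynomial ι R →+* Module.End κ W) (hC : ∀ r, φ (C r) = f r • 1) (a : ι → R)
    (h : ∀ w : W, (∀ i, φ (X i - C (a i)) w = 0) → w = 0) :
    ∃ P : MvPolynomial ι R, f (eval a P) = 1 ∧ φ P = 0 := by
  suffices H : ∀ V : Submodule κ W, (∀ P, ∀ v ∈ V, φ P v ∈ V) →
      ∃ P : MvPolynomial ι R, f (eval a P) = 1 ∧ ∀ v ∈ V, φ P v = 0 by
    obtain ⟨P, hP, hP'⟩ := H ⊤ fun P v _ => trivial
    exact ⟨P, hP, LinearMap.ext fun v => hP' v trivial⟩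
  intro V
  induction V using WellFoundedLT.induction with
  | ind V ih =>
  intro hV
  by_cases hbot : ∀ v ∈ V, v = (0 : W)
  · exact ⟨1, by simp, fun v hv => by rw [hbot v hv, map_zero]⟩
  push Not at hbot
  obtain ⟨v, hv, hv0⟩ := hbot
  obtain ⟨i, hi⟩ : ∃ i, φ (X i - C (a i)) v ≠ 0 := by
    by_contra hc
    push Not at hc
    exact hv0 (h v hc)
  set N := φ (X i - C (a i)) with hN
  have hcomm : ∀ P w, φ P (N w) = N (φ P w) := fun P w => by
    rw [hN, ← Module.End.mul_apply, ← map_mul, mul_comm, map_mul, Module.End.mul_apply]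
  have hker : V ⊓ LinearMap.ker N < V :=
    lt_of_le_of_ne inf_le_left fun e => hi ((e.symm ▸ hv : v ∈ V ⊓ LinearMap.ker N)).2
  obtain ⟨P₁, hP₁, hP₁'⟩ := ih _ hker fun P w hw =>
    ⟨hV P w hw.1, show N (φ P w) = 0 by rw [← hcomm, show N w = 0 from hw.2, map_zero]⟩
  have hle : V.map N ≤ V := by
    rintro _ ⟨w, hw, rfl⟩
    exact hV _ w hw
  rcases hle.lt_or_eq with hlt | heq
  · obtain ⟨P₂, hP₂, hP₂'⟩ := ih _ hlt fun P w hw => by
      obtain ⟨u, hu, rfl⟩ := hw
      exact ⟨φ P u, hV P u hu, (hcomm P u).symm⟩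
    refine ⟨P₁ * P₂, by rw [map_mul, map_mul, hP₁, hP₂, mul_one], fun w hw => ?_⟩
    rw [map_mul, Module.End.mul_apply]
    exact hP₁' _ ⟨hV P₂ w hw, show N (φ P₂ w) = 0 by rw [← hcomm, hP₂' _ ⟨w, hw, rfl⟩]⟩
  · -- `N` is invertible on `V`
    set N' : Module.End κ V := N.restrict fun w hw => hV _ w hw with hN'
    have hsurj : Function.Surjective N' := by
      rintro ⟨w, hw⟩
      rw [← heq] at hw
      obtain ⟨u, hu, rfl⟩ := hw
      exact ⟨⟨u, hu⟩, rfl⟩
    have hinj : Function.Injective N' := LinearMap.injective_iff_surjective.mpr hsurj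
    have hc0 : N'.charpoly.coeff 0 ≠ 0 := fun h0 => by
      obtain ⟨m, hm, hm0⟩ := (LinearMap.charpoly_constantCoeff_eq_zero_iff N').mp
        (by rwa [Polynomial.constantCoeff_apply])
      exact hm (hinj (hm0.trans (map_zero N').symm))
    obtain ⟨p, hp⟩ := Polynomial.map_surjective f hf
      (Polynomial.C (N'.charpoly.coeff 0)⁻¹ * N'.charpoly)
    refine ⟨p.eval₂ C (X i - C (a i)), ?_, fun w hw => ?_⟩
    · have e : eval a (p.eval₂ C (X i - C (a i))) = p.eval 0 := by
        rw [Polynomial.hom_eval₂]
        simp [RingHom.comp, Polynomial.eval, eval_C]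
      rw [e, ← Polynomial.coeff_zero_eq_eval_zero, ← Polynomial.coeff_map, hp,
        Polynomial.coeff_C_mul, inv_mul_cancel₀ hc0]
    · have e : φ (p.eval₂ C (X i - C (a i))) = Polynomial.aeval N (p.map f) := by
        rw [Polynomial.aeval_def, Polynomial.eval₂_map, Polynomial.hom_eval₂]
        congr 1
        exact RingHom.ext fun r => by
          rw [RingHom.comp_apply, RingHom.comp_apply, hC, Algebra.algebraMap_eq_smul_one]
      rw [e, hp]
      have key : ∀ (q : Polynomial κ) (u : V),
          ((Polynomial.aeval N' q u : V) : W) = Polynomial.aeval N q (u : W) := by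
        intro q
        induction q using Polynomial.induction_on with
        | C r => intro u; simp [Algebra.algebraMap_eq_smul_one]
        | add q₁ q₂ h₁ h₂ => intro u; simp [h₁, h₂]
        | monomial n r h =>
          intro u
          rw [pow_succ, ← mul_assoc]
          simp only [map_mul, Polynomial.aeval_X, Module.End.mul_apply] at h ⊢
          rw [h]
          rfl
      rw [map_mul, Module.End.mul_apply, Polynomial.aeval_C, ← key N'.charpoly ⟨w, hw⟩,
        LinearMap.aeval_self_charpoly]
      simp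

end Residual

section Reduce

variable {R : Type} [CommRing R] (m : Ideal R) (N : Type) [AddCommGroup N] [Module R N]

/-- Endomorphisms act on the residue of a module. -/
def reduceEnd : Module.End R N →+* Module.End (R ⧸ m) (N ⧸ (m • (⊤ : Submodule R N))) where
  toFun f :=
    { toFun := Submodule.mapQ _ _ f (Submodule.map_le_iff_le_comap.mp (by
        rw [Submodule.map_smul'']; exact Submodule.smul_mono le_rfl le_top))
      map_add' := map_add _
      map_smul' := fun c w => by
        obtain ⟨c, rfl⟩ := Ideal.Quotient.mk_surjective c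
        exact map_smul (Submodule.mapQ _ _ f _) c w }
  map_one' := LinearMap.ext fun w => by
    induction w using Submodule.Quotient.induction_on with | _ x => rfl
  map_mul' f g := LinearMap.ext fun w => by
    induction w using Submodule.Quotient.induction_on with | _ x => rfl
  map_zero' := LinearMap.ext fun w => by
    induction w using Submodule.Quotient.induction_on with | _ x => rfl
  map_add' f g := LinearMap.ext fun w => by
    induction w using Submodule.Quotient.induction_on with | _ x => rfl

variable {m}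

/-- A monic polynomial with lower coefficients in `m` is `1` at a point congruent to `1`. -/
theorem mk_eval_eq_one {Q : Polynomial R} (hQ : Q.Monic)
    (hcoef : ∀ k, Q.coeff k ∈ m ^ (Q.natDegree - k)) {x : R} (hx : Ideal.Quotient.mk m x = 1) :
    Ideal.Quotient.mk m (Q.eval x) = 1 := by
  rw [← Polynomial.eval₂_at_apply, hx, Polynomial.eval₂_eq_sum_range, Finset.sum_range_succ,
    Finset.sum_eq_zero, hQ.coeff_natDegree, map_one, zero_add, one_pow, mul_one]
  intro k hk
  rw [one_pow, mul_one, Ideal.Quotient.eq_zero_iff_mem]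
  exact Ideal.pow_le_self (by have := Finset.mem_range.mp hk; omega) (hcoef k)

/-- Either a vector is an eigenvector of the system modulo `m`, or some polynomial with value `1`
modulo `m` at the system kills the module. -/
theorem exists_eigen_or_kill [m.IsMaximal] [Module.Finite R N] {ι : Type}
    (φ : MvPolynomial ι R →ₐ[R] Module.End R N) (a : ι → R) :
    (∃ x : N, x ∉ m • (⊤ : Submodule R N) ∧
      ∀ i, φ (X i) x - a i • x ∈ m • (⊤ : Submodule R N)) ∨
      ∃ Q, φ Q = 0 ∧ Ideal.Quotient.mk m (eval a Q) = 1 := by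
  let : Field (R ⧸ m) := Ideal.Quotient.field m
  have : Module.Finite (R ⧸ m) (N ⧸ (m • (⊤ : Submodule R N))) :=
    Module.Finite.of_restrictScalars_finite R (R ⧸ m) _
  set φW := (reduceEnd m N).comp φ.toRingHom with hdef
  have hφW : ∀ P x, φW P (Submodule.Quotient.mk x) = Submodule.Quotient.mk (φ P x) :=
    fun P x => rfl
  have hC : ∀ r x, φ (C r) x = r • x := fun r x => by
    rw [← MvPolynomial.algebraMap_eq, AlgHom.commutes, Module.algebraMap_end_apply]
  have hWC : ∀ r, φW (C r) = Ideal.Quotient.mk m r • 1 := fun r => LinearMap.ext fun w => by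
    induction w using Submodule.Quotient.induction_on with
    | _ x => rw [hφW, hC]; rfl
  by_cases hev : ∀ w, (∀ i, φW (X i - C (a i)) w = 0) → w = 0
  · obtain ⟨P, hP, hP0⟩ := exists_annihilator (Ideal.Quotient.mk m) Ideal.Quotient.mk_surjective
      φW hWC a hev
    have hrange : LinearMap.range (φ P) ≤ m • (⊤ : Submodule R N) := by
      rintro _ ⟨x, rfl⟩
      rw [← Submodule.Quotient.mk_eq_zero, ← hφW, hP0, LinearMap.zero_apply]
    obtain ⟨Q, hmon, -, hcoef, hQ⟩ :=
      LinearMap.exists_monic_and_natDegree_eq_and_coeff_mem_pow_and_aeval_eq_zero R (φ P) m hrange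
    refine Or.inr ⟨Polynomial.aeval P Q, by rw [← Polynomial.aeval_algHom_apply, hQ], ?_⟩
    rw [show eval a (Polynomial.aeval P Q) = Polynomial.eval (eval a P) Q by
      show (MvPolynomial.aeval a) _ = _
      rw [← Polynomial.aeval_algHom_apply, Polynomial.coe_aeval_eq_eval]; rfl]
    exact mk_eval_eq_one hmon hcoef hP
  · push Not at hev
    obtain ⟨w, hw, hw0⟩ := hev
    obtain ⟨x, rfl⟩ := Submodule.Quotient.mk_surjective _ w
    refine Or.inl ⟨x, fun h => hw0 ((Submodule.Quotient.mk_eq_zero _).mpr h), fun i => ?_⟩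
    rw [← Submodule.Quotient.mk_eq_zero, ← hC, Submodule.Quotient.mk_sub, ← hφW, ← hφW,
      ← LinearMap.sub_apply, ← map_sub]
    exact hw i

end Reduce

variable {K : Type} [Field K] (O : ValuationSubring K) {X : Type}

/-- The integral points of a subspace of functions. -/
def intPts (U : Submodule K (X → K)) : Submodule O (X → O) where
  carrier := {l | (fun x => (l x : K)) ∈ U}
  zero_mem' := by
    simp only [Set.mem_ofPred_eq, Pi.zero_apply, ZeroMemClass.coe_zero]
    exact U.zero_mem
  add_mem' := fun {l l'} hl hl' => by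
    simp only [Set.mem_ofPred_eq, Pi.add_apply, AddMemClass.coe_add]
    exact U.add_mem hl hl'
  smul_mem' c l hl := by
    simp only [Set.mem_ofPred_eq, Pi.smul_apply, smul_eq_mul, MulMemClass.coe_mul]
    exact U.smul_mem (c : K) hl

theorem mem_intPts {U : Submodule K (X → K)} {l : X → O} :
    l ∈ intPts O U ↔ (fun x => (l x : K)) ∈ U := Iff.rfl

/-- Integrality and vanishing are detected on a finite set. -/
structure FinControl (U : Submodule K (X → K)) (s : Finset X) : Prop where
  integral : ∀ u ∈ U, (∀ x ∈ s, u x ∈ O) → ∀ x, u x ∈ O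
  proper : ∃ c : K, c ∉ O

variable {O}

theorem FinControl.mono {U U' : Submodule K (X → K)} {s : Finset X} (h : FinControl O U s)
    (hle : U' ≤ U) : FinControl O U' s := ⟨fun u hu => h.integral u (hle hu), h.proper⟩

theorem FinControl.eq_zero {U : Submodule K (X → K)} {s : Finset X} (h : FinControl O U s)
    {u : X → K} (hu : u ∈ U) (h0 : ∀ x ∈ s, u x = 0) : u = 0 := by
  obtain ⟨c, hc⟩ := h.proper
  funext x
  by_contra hx
  refine hc ?_
  have := h.integral _ (U.smul_mem (c / u x) hu) (fun y hy => by simp [h0 y hy]) x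
  simpa [div_mul_cancel₀ _ hx] using this

/-- A non-zero member of a controlled space has a coordinate dividing all the others. -/
theorem FinControl.exists_pivot {U : Submodule K (X → K)} {s : Finset X} (h : FinControl O U s)
    {u : X → K} (hu : u ∈ U) (h0 : u ≠ 0) :
    ∃ x₀, u x₀ ≠ 0 ∧ ∀ x, u x / u x₀ ∈ O := by
  have hs : s.Nonempty := by
    rw [Finset.nonempty_iff_ne_empty]
    rintro rfl
    exact h0 (h.eq_zero hu (by simp))
  obtain ⟨x₀, hx₀, hmax⟩ := Finset.exists_max_image s (fun x => O.valuation (u x)) hs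
  have hx0 : u x₀ ≠ 0 := fun e => h0 (h.eq_zero hu fun x hx => by
    have := hmax x hx
    rw [e, map_zero, le_zero_iff, map_eq_zero] at this
    exact this)
  refine ⟨x₀, hx0, fun x => ?_⟩
  have := h.integral _ (U.smul_mem (u x₀)⁻¹ hu) (fun y hy => by
    rw [← O.valuation_le_one_iff, Pi.smul_apply, smul_eq_mul, map_mul, map_inv₀, ← div_eq_inv_mul]
    exact (div_le_one₀ (zero_lt_iff.mpr (O.valuation.ne_zero_iff.mpr hx0))).mpr (hmax y hy)) x
  rwa [Pi.smul_apply, smul_eq_mul, ← div_eq_inv_mul] at this

/-- A finitely controlled space is finite dimensional. -/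
theorem FinControl.finiteDimensional {U : Submodule K (X → K)} {s : Finset X}
    (h : FinControl O U s) : FiniteDimensional K U :=
  FiniteDimensional.of_injective
    ((LinearMap.pi fun x : s => LinearMap.proj (x : X)).comp U.subtype : U →ₗ[K] s → K)
    ((injective_iff_map_eq_zero _).mpr fun u hu =>
      Subtype.ext (h.eq_zero u.2 fun x hx => congrFun hu ⟨x, hx⟩))

theorem intPts_fg {U : Submodule K (X → K)} {s : Finset X} (h : FinControl O U s) :
    (intPts O U).FG := by
  suffices H : ∀ (n : ℕ) (U' : Submodule K (X → K)), U' ≤ U → Module.finrank K U' ≤ n →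
      (intPts O U').FG from H _ U le_rfl le_rfl
  intro n
  induction n with
  | zero =>
    intro U' hle hn
    have := (h.mono hle).finiteDimensional
    have : U' = ⊥ := Submodule.finrank_eq_zero.mp (Nat.le_zero.mp hn)
    subst this
    convert Submodule.fg_bot
    refine (Submodule.eq_bot_iff _).mpr fun l hl => funext fun x => Subtype.ext ?_
    exact congrFun ((Submodule.mem_bot K).mp hl) x
  | succ n ih =>
    intro U' hle hn
    have := (h.mono hle).finiteDimensional
    by_cases hbot : U' = ⊥
    · exact ih U' hle (by rw [hbot, finrank_bot]; exact Nat.zero_le n)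
    obtain ⟨u, hu, hu0⟩ := Submodule.exists_mem_ne_zero_of_ne_bot hbot
    obtain ⟨x₀, hx0, hdiv⟩ := (h.mono hle).exists_pivot hu hu0
    let v : X → O := fun x => ⟨u x / u x₀, hdiv x⟩
    have hv : v ∈ intPts O U' := by
      rw [mem_intPts]
      convert U'.smul_mem (u x₀)⁻¹ hu using 1
      funext x
      simp [v, div_eq_inv_mul]
    set U₁ := U' ⊓ LinearMap.ker (LinearMap.proj (R := K) (φ := fun _ : X => K) x₀) with hU₁
    have hlt : U₁ < U' := lt_of_le_of_ne inf_le_left fun e => hx0 (e ▸ hu : u ∈ U₁).2
    obtain ⟨G, hG⟩ := ih U₁ (inf_le_left.trans hle)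
      (by have := Submodule.finrank_lt_finrank_of_lt hlt; omega)
    classical
    refine ⟨insert v G, ?_⟩
    rw [Finset.coe_insert, Submodule.span_insert, hG]
    refine le_antisymm (sup_le ((Submodule.span_singleton_le_iff_mem _ _).mpr hv) fun l hl => hl.1)
      fun l hl => Submodule.mem_sup.mpr
        ⟨l x₀ • v, Submodule.smul_mem _ _ (Submodule.mem_span_singleton_self v), l - l x₀ • v,
          ⟨sub_mem hl (Submodule.smul_mem _ _ hv), ?_⟩, add_sub_cancel _ _⟩
    show ((l x₀ - l x₀ • v x₀ : O) : K) = 0
    simp [v, div_self hx0]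

/-- Integral points whose coordinates are all non-units are multiples by non-units. -/
theorem mem_smul_intPts {U : Submodule K (X → K)} {s : Finset X} (h : FinControl O U s)
    {l : X → O} (hl : l ∈ intPts O U) (hm : ∀ x, l x ∈ IsLocalRing.maximalIdeal O) :
    l ∈ IsLocalRing.maximalIdeal O • intPts O U := by
  by_cases h0 : (fun x => (l x : K)) = 0
  · have : l = 0 := funext fun x => Subtype.ext (congrFun h0 x)
    rw [this]; exact zero_mem _
  obtain ⟨x₀, hx0, hdiv⟩ := h.exists_pivot hl h0
  have e : l = l x₀ • fun x => (⟨(l x : K) / l x₀, hdiv x⟩ : O) :=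
    funext fun x => Subtype.ext (by simp [mul_div_cancel₀ _ hx0])
  rw [e]
  refine Submodule.smul_mem_smul (hm x₀) ?_
  rw [mem_intPts]
  convert U.smul_mem (l x₀ : K)⁻¹ hl using 1
  funext x
  simp [div_eq_inv_mul]

theorem coe_mem_maximal {U : Submodule K (X → K)} {l : X → O}
    (hl : l ∈ IsLocalRing.maximalIdeal O • intPts O U) (x : X) :
    l x ∈ IsLocalRing.maximalIdeal O := by
  refine Submodule.smul_induction_on hl (fun r hr n _ => ?_) fun a b ha hb => ?_
  · exact Ideal.mul_mem_right _ _ hr
  · exact add_mem ha hb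

/-- A point of the lattice of `U` vanishes in the residue of its quotient by the lattice of `B`
iff it is congruent to a point of the lattice of `B`. -/
theorem mk_mk_eq_zero_iff {U B : Submodule K (X → K)} {s : Finset X} (h : FinControl O U s)
    (hBU : B ≤ U) (y : intPts O U) :
    (Submodule.Quotient.mk (Submodule.Quotient.mk y) :
      (intPts O U ⧸ (intPts O B).comap (intPts O U).subtype) ⧸
        (IsLocalRing.maximalIdeal O •
          (⊤ : Submodule O (intPts O U ⧸ (intPts O B).comap (intPts O U).subtype)))) = 0 ↔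
      ∃ b ∈ intPts O B, ∀ x, y.1 x - b x ∈ IsLocalRing.maximalIdeal O := by
  revert y
  set m := IsLocalRing.maximalIdeal O
  set L := intPts O U
  set LB : Submodule O L := (intPts O B).comap L.subtype
  intro y
  rw [Submodule.Quotient.mk_eq_zero,
    show m • (⊤ : Submodule O (L ⧸ LB)) = (m • (⊤ : Submodule O L)).map LB.mkQ by
      rw [Submodule.map_smul'', Submodule.map_top, Submodule.range_mkQ]]
  constructor
  · rintro ⟨z, hz, hzy⟩
    have hb := (Submodule.Quotient.eq LB).mp hzy.symm
    refine ⟨_, hb, fun x => ?_⟩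
    have hz' : z.1 ∈ m • intPts O U := by
      have := Submodule.mem_map_of_mem (f := L.subtype) hz
      rwa [Submodule.map_smul'', Submodule.map_top, Submodule.range_subtype] at this
    simpa [-IsLocalRing.mem_maximalIdeal] using coe_mem_maximal hz' x
  · rintro ⟨b, hb, hy⟩
    have hbU : b ∈ L := hBU hb
    refine ⟨y - ⟨b, hbU⟩, ?_, ?_⟩
    · have h1 := mem_smul_intPts h (sub_mem y.2 hbU) hy
      have h2 : y.1 - b ∈ (m • (⊤ : Submodule O L)).map L.subtype := by
        rw [Submodule.map_smul'', Submodule.map_top, Submodule.range_subtype]; exact h1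
      obtain ⟨z, hz, hze⟩ := h2
      rwa [show y - ⟨b, hbU⟩ = z from Subtype.ext hze.symm]
    · refine (Submodule.Quotient.eq LB).mpr ?_
      rw [sub_sub_cancel_left]
      exact neg_mem hb

variable {H ι : Type} [AddCommGroup H] [Module K H]

/-- **Residual eigenvector.** If no integral polynomial in the operators killing `h₀` takes a
unit value at `a`, some integral point of `U`, non-zero modulo `m` and the integral points of `B`,
is an eigenvector for `a` modulo these. -/
theorem exists_residual_eigen {U B : Submodule K (X → K)} {s : Finset X} (hs : FinControl O U s)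
    (hBU : B ≤ U) (T : ι → Module.End K (X → K)) (T₀ : ι → Module.End O (X → O))
    (hT₀ : ∀ i l x, (T₀ i l x : K) = T i (fun y => (l y : K)) x)
    (hTU : ∀ i, ∀ u ∈ U, T i u ∈ U) (hTB : ∀ i, ∀ u ∈ B, T i u ∈ B)
    (per : H →ₗ[K] (X → K)) (TH : ι → Module.End K H) (hperU : ∀ v, per v ∈ U)
    (hgen : ∀ u ∈ U, ∃ v, u - per v ∈ B) (hperT : ∀ i v, per (TH i v) - T i (per v) ∈ B)
    (hinj : ∀ v, per v ∈ B → v = 0) (hcommH : ∀ i j v, TH i (TH j v) = TH j (TH i v))
    (a : ι → O) (h₀ : H)
    (hann : ∀ φ : MvPolynomial ι O →+* Module.End K H, (∀ i, φ (MvPolynomial.X i) = TH i) →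
      (∀ r : O, φ (C r) = (r : K) • 1) → ∀ P, φ P h₀ = 0 →
        eval a P ∈ IsLocalRing.maximalIdeal O) :
    ∃ l ∈ intPts O U,
      (∀ b ∈ intPts O B, ∃ x, l x - b x ∉ IsLocalRing.maximalIdeal O) ∧
      ∀ i, ∃ b ∈ intPts O B, ∀ x, T₀ i l x - a i * l x - b x ∈ IsLocalRing.maximalIdeal O := by
  classical
  set m := IsLocalRing.maximalIdeal O
  let φH : MvPolynomial ι O →+* Module.End K H :=
    (evalComm (R := K) TH fun i j => LinearMap.ext (hcommH i j)).toRingHom.comp
      (MvPolynomial.map O.subtype)
  have hX : ∀ i, φH (MvPolynomial.X i) = TH i := fun i => by simp [φH]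
  have hC : ∀ r : O, φH (C r) = (r : K) • 1 := fun r => by
    simp [φH, Algebra.algebraMap_eq_smul_one]
  have hann' := hann φH hX hC
  -- the lattice and its quotient
  set L := intPts O U
  have : Module.Finite O L := Module.Finite.iff_fg.mpr (intPts_fg hs)
  set LB : Submodule O L := (intPts O B).comap L.subtype
  let incl : L →ₗ[O] (X → K) ⧸ B :=
    { toFun := fun l => B.mkQ fun x => (l.1 x : K)
      map_add' := fun l l' => map_add B.mkQ _ _
      map_smul' := fun c l => (map_smul B.mkQ (c : K) _) }
  have hincl : ∀ l : L, incl l = 0 ↔ l ∈ LB := fun l => Submodule.Quotient.mk_eq_zero _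
  let TL : ι → Module.End O L := fun i => (T₀ i).restrict fun l hl => by
    rw [mem_intPts]
    convert hTU i _ hl using 1
    exact funext fun x => hT₀ i l x
  have hTL : ∀ i l, incl (TL i l) = B.mkQ (T i fun x => (l.1 x : K)) := fun i l =>
    congrArg B.mkQ (funext fun x => hT₀ i l.1 x)
  have hTLB : ∀ i, LB ≤ LB.comap (TL i) := fun i l hl => by
    rw [Submodule.mem_comap, ← hincl, hTL, Submodule.mkQ_apply, Submodule.Quotient.mk_eq_zero]
    exact hTB i _ hl
  let TΛ : ι → Module.End O (L ⧸ LB) := fun i => LB.mapQ LB (TL i) (hTLB i)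
  have hTΛ : ∀ i l, TΛ i (Submodule.Quotient.mk l) = Submodule.Quotient.mk (TL i l) :=
    fun i l => rfl
  -- every lattice point comes from a vector of `H`
  have hlift : ∀ l : L, ∃ v, incl l = B.mkQ (per v) := fun l => by
    obtain ⟨v, hv⟩ := hgen _ l.2
    exact ⟨v, (Submodule.Quotient.eq B).mpr hv⟩
  have hTper : ∀ i (l : L) v, incl l = B.mkQ (per v) → incl (TL i l) = B.mkQ (per (TH i v)) := by
    intro i l v hl
    rw [hTL]
    refine (Submodule.Quotient.eq B).mpr ?_
    have h1 : (fun x => (l.1 x : K)) - per v ∈ B := (Submodule.Quotient.eq B).mp hl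
    have h2 := hperT i v
    have h3 := hTB i _ h1
    rw [map_sub] at h3
    convert sub_mem h3 h2 using 1
    abel
  have hcommΛ : ∀ i j x, TΛ i (TΛ j x) = TΛ j (TΛ i x) := fun i j x => by
    induction x using Submodule.Quotient.induction_on with
    | _ l =>
    obtain ⟨v, hv⟩ := hlift l
    rw [hTΛ, hTΛ, hTΛ, hTΛ, Submodule.Quotient.eq, ← hincl, map_sub, sub_eq_zero,
      hTper i _ _ (hTper j l v hv), hTper j _ _ (hTper i l v hv), hcommH]
  let φΛ : MvPolynomial ι O →ₐ[O] Module.End O (L ⧸ LB) :=
    evalComm TΛ fun i j => LinearMap.ext (hcommΛ i j)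
  have hΛX : ∀ i, φΛ (MvPolynomial.X i) = TΛ i := evalComm_X _ _
  let inclQ : L ⧸ LB →ₗ[O] (X → K) ⧸ B := LB.liftQ incl fun l hl => (hincl l).mpr hl
  have key : ∀ (P : MvPolynomial ι O) (x : L ⧸ LB) v, inclQ x = B.mkQ (per v) →
      inclQ (φΛ P x) = B.mkQ (per (φH P v)) := by
    intro P
    induction P using MvPolynomial.induction_on with
    | C r =>
      intro x v hx
      rw [← MvPolynomial.algebraMap_eq, AlgHom.commutes, Module.algebraMap_end_apply, map_smul, hx,
        MvPolynomial.algebraMap_eq, hC, LinearMap.smul_apply, Module.End.one_apply, map_smul]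
      rfl
    | add P Q hP hQ =>
      intro x v hx
      rw [map_add, map_add, LinearMap.add_apply, LinearMap.add_apply, map_add, map_add, map_add,
        hP x v hx, hQ x v hx]
    | mul_X P i hP =>
      intro x v hx
      rw [map_mul, map_mul, Module.End.mul_apply, Module.End.mul_apply, hΛX, hX]
      refine hP _ _ ?_
      induction x using Submodule.Quotient.induction_on with
      | _ l => exact hTper i l v hx
  obtain ⟨x, hx0, hx⟩ | ⟨Q, hQ, hθ⟩ := exists_eigen_or_kill (m := m) _ φΛ a
  · obtain ⟨l, rfl⟩ := Submodule.Quotient.mk_surjective _ x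
    have hmod : ∀ y : L, (Submodule.Quotient.mk y : L ⧸ LB) ∈ m • (⊤ : Submodule O (L ⧸ LB)) ↔
        ∃ b ∈ intPts O B, ∀ x, y.1 x - b x ∈ m :=
      fun y => (Submodule.Quotient.mk_eq_zero _).symm.trans (mk_mk_eq_zero_iff hs hBU y)
    refine ⟨l.1, l.2, fun b hb => ?_, fun i => ?_⟩
    · by_contra hc
      push Not at hc
      exact hx0 ((hmod l).mpr ⟨b, hb, hc⟩)
    · have h := hx i
      rw [hΛX, hTΛ, ← Submodule.Quotient.mk_smul, ← Submodule.Quotient.mk_sub] at h
      exact (hmod (TL i l - a i • l)).mp h
  · exfalso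
    have hmem : eval a Q ∈ m := by
      by_cases hp0 : per h₀ = 0
      · rw [hinj h₀ (hp0 ▸ B.zero_mem)] at hann'
        exact hann' Q (map_zero _)
      obtain ⟨x₀, hx0, hdiv⟩ := hs.exists_pivot (hperU h₀) hp0
      set c := per h₀ x₀
      let l : L := ⟨fun x => ⟨per h₀ x / c, hdiv x⟩, by
        rw [mem_intPts]
        convert U.smul_mem c⁻¹ (hperU h₀) using 1
        exact funext fun x => div_eq_inv_mul _ _⟩
      have hl : inclQ (Submodule.Quotient.mk l) = B.mkQ (per (c⁻¹ • h₀)) :=
        congrArg B.mkQ (funext fun x => by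
          rw [map_smul, Pi.smul_apply, smul_eq_mul, ← div_eq_inv_mul])
      have h1 := key Q _ _ hl
      rw [hQ, LinearMap.zero_apply, map_zero, eq_comm, Submodule.mkQ_apply,
        Submodule.Quotient.mk_eq_zero, map_smul, map_smul] at h1
      have h2 := hinj _ (by simpa [smul_smul, mul_inv_cancel₀ hx0] using B.smul_mem c h1)
      exact hann' Q h2
    rw [Ideal.Quotient.eq_zero_iff_mem.mpr hmem] at hθ
    exact zero_ne_one hθ

end Fermat.Agent.Raising.SquareRemoval
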